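/-
GATE-Z (S15) / node (F), file 0 (helper20, gate lead): **VOCABULARY PIN for the Eisenstein descent**
(board 6010 R9).  Definitions only.

* `MW p`            : the Galois-fixed points of `J₀(p)(ℚ̄)` (`= J₀(p)(ℚ)`), as in frozen S17.
* `Tq p q`          : `heckeOperatorBar p q`, for a prime `q`.
* `eisOp p q`       : `T_q − (q + 1)`.
* `GoodList p S l`  : all primes of the list `l` are `∉ S` and `≠ p`.
* `eisPart p S r k` : the EISENSTEIN PART `V_k` of `J₀(p)[r^k]`: the `x` with `r^k • x = 0` killed by
                      all products of `N` operators `T_q − (q+1)` (`q ∉ S`, `q ≠ p`) for some `N`.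
-/
import Fermat.Prelude.Def_ModularCurve_HeckeModule
import Fermat.Prelude.Def_ModularCurve_ArithmeticGalois
import Fermat.Agent.GZ.Top.S15Top

set_option autoImplicit false

noncomputable section

open AlgebraicCurve ModularCurve

namespace Fermat.Agent.GZ.F

local notation "GQ" => (AlgebraicClosure ℚ ≃ₐ[ℚ] AlgebraicClosure ℚ)

variable (p : ℕ) [NeZero p]

/-- the Mordell–Weil group `J₀(p)(ℚ)`: the Galois-fixed points of `J₀(p)(ℚ̄)` (frozen S17). -/
def MW : AddSubgroup (JZero p) := FixedPoints.addSubgroup GQ (JZero p)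

omit [NeZero p] in
theorem mem_MW {z : JZero p} : z ∈ MW p ↔ ∀ σ : GQ, σ • z = z := Iff.rfl

/-- `T_q` at level `p`. -/
abbrev Tq (q : Nat.Primes) : Module.End ℤ (JZero p) := heckeOperatorBar p q

/-- the Eisenstein operator `T_q − (q + 1)`. -/
def eisOp (q : Nat.Primes) : Module.End ℤ (JZero p) :=
  heckeOperatorBar p q - (((q : ℕ) : ℤ) + 1) • (1 : Module.End ℤ (JZero p))

theorem eisOp_apply (q : Nat.Primes) (x : JZero p) :
    eisOp p q x = heckeOperatorBar p q x - (((q : ℕ) : ℤ) + 1) • x := by
  rw [eisOp, LinearMap.sub_apply, LinearMap.smul_apply, Module.End.one_apply]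

/-- all primes of the list are `∉ S` and `≠ p`. -/
def GoodList (S : Finset ℕ) (l : List Nat.Primes) : Prop :=
  ∀ q ∈ l, (q : ℕ) ∉ S ∧ (q : ℕ) ≠ p

/-- the product of the Eisenstein operators of a list of primes. -/
def eisProd (l : List Nat.Primes) : Module.End ℤ (JZero p) := (l.map (eisOp p)).prod

/-- **the Eisenstein part `V_k` of `J₀(p)[r^k]`** (away from `S`). -/
def eisPart (S : Finset ℕ) (r k : ℕ) : AddSubgroup (JZero p) where
  carrier := {x | r ^ k • x = 0 ∧
    ∃ N : ℕ, ∀ l : List Nat.Primes, l.length = N → GoodList p S l → eisProd p l x = 0}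
  zero_mem' := ⟨nsmul_zero _, 0, fun l _ _ => map_zero _⟩
  add_mem' := by
    rintro a b ⟨ha, Na, hNa⟩ ⟨hb, Nb, hNb⟩
    refine ⟨by rw [nsmul_add, ha, hb, add_zero], Na + Nb, fun l hl hgood => ?_⟩
    -- split the list
    have hsplit : l = l.take Nb ++ l.drop Nb := (List.take_append_drop Nb l).symm
    have hgt : GoodList p S (l.take Nb) := fun q hq => hgood q (List.mem_of_mem_take hq)
    have hgd : GoodList p S (l.drop Nb) := fun q hq => hgood q (List.mem_of_mem_drop hq)
    have hlen_t : (l.take Nb).length = Nb := by rw [List.length_take, hl]; omega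
    have hlen_d : (l.drop Nb).length = Na := by rw [List.length_drop, hl]; omega
    have hprod : eisProd p l = eisProd p (l.take Nb) * eisProd p (l.drop Nb) := by
      unfold eisProd
      rw [← List.prod_append, ← List.map_append, List.take_append_drop]
    -- the operators in the product commute up to reordering: use both factorizations
    have hlen_t' : (l.take Na).length = Na := by rw [List.length_take, hl]; omega
    have hlen_d' : (l.drop Na).length = Nb := by rw [List.length_drop, hl]; omega
    have hprod' : eisProd p l = eisProd p (l.take Na) * eisProd p (l.drop Na) := by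
      unfold eisProd
      rw [← List.prod_append, ← List.map_append, List.take_append_drop]
    have hgd' : GoodList p S (l.drop Na) := fun q hq => hgood q (List.mem_of_mem_drop hq)
    rw [map_add]
    have h1 : eisProd p l a = 0 := by
      rw [hprod, Module.End.mul_apply, hNa _ hlen_d hgd, map_zero]
    have h2 : eisProd p l b = 0 := by
      rw [hprod', Module.End.mul_apply, hNb _ hlen_d' hgd', map_zero]
    rw [h1, h2, add_zero]
  neg_mem' := by
    rintro a ⟨ha, Na, hNa⟩
    exact ⟨by rw [smul_neg (r ^ k) a, ha, neg_zero], Na, fun l hl hgood => by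
      rw [map_neg, hNa l hl hgood, neg_zero]⟩

theorem mem_eisPart {S : Finset ℕ} {r k : ℕ} {x : JZero p} :
    x ∈ eisPart p S r k ↔ r ^ k • x = 0 ∧
      ∃ N : ℕ, ∀ l : List Nat.Primes, l.length = N → GoodList p S l → eisProd p l x = 0 :=
  Iff.rfl

end Fermat.Agent.GZ.F
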