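/-
GATE-Z (S15) / node (F), abstract TOP (helper20): **NAK + GROW + the Selmer bound**, for an arbitrary
abelian group `J` (Mathlib + `GZ/Nak` + `GZ/F/Grow2` + `GZ/HComm` only).

`MW ≤ J` finitely generated, `T i : Module.End ℤ J` preserving `MW` and commuting modulo torsion on
`MW`, `a i : ℤ`, `r` prime.

* `mProd T a l`      : the product of the operators `T i − a i` along the list `l`.
* `SelHypAbs MW T a r`: there are `n' > 0`, `C₁` such that for every `k` and every `T`-stable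
  `Y ⊆ n' • MW` which is Eisenstein modulo `r^k MW` (some fixed number of operators `T i − a i`
  always maps `Y` into `r^k MW`), every family of elements of `Y` pairwise incongruent modulo
  `r^k MW` has at most `C₁` members.
* `exists_adjoin_kill_of_sel` : then some `t` in the `ℤ`-algebra generated by the `T i` kills `MW`
  modulo torsion and acts on exact eigenvectors (`T i c = a i • c`) as an integer prime to `r`.
-/
import Mathlib
import Fermat.Agent.GZ.Nak
import Fermat.Agent.GZ.F.Grow2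
import Fermat.Agent.GZ.HComm

set_option autoImplicit false

namespace Fermat.Agent.GZ.F.Abs

open Fermat.Agent.GZ.Nak Fermat.Agent.GZ.F.Grow

variable {ι J : Type*} [AddCommGroup J]

/-- the product of the operators `T i − a i` along a list. -/
def mProd (T : ι → Module.End ℤ J) (a : ι → ℤ) (l : List ι) : Module.End ℤ J :=
  (l.map fun i => T i - a i • (1 : Module.End ℤ J)).prod

/-- **the Selmer bound, abstract form.** -/
def SelHypAbs (MW : AddSubgroup J) (T : ι → Module.End ℤ J) (a : ι → ℤ) (r : ℕ) : Prop :=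
  ∃ n' C₁ : ℕ, 0 < n' ∧ ∀ (k : ℕ) (Y : AddSubgroup J),
    (∀ y ∈ Y, ∃ z ∈ MW, y = n' • z) →
    (∀ i, ∀ y ∈ Y, T i y ∈ Y) →
    (∃ N : ℕ, ∀ l : List ι, l.length = N → ∀ y ∈ Y, ∃ w ∈ MW, mProd T a l y = r ^ k • w) →
    ∀ (m : ℕ) (y : Fin m → J), (∀ j, y j ∈ Y) →
      (∀ j j', j ≠ j' → ¬ ∃ w ∈ MW, y j - y j' = r ^ k • w) → m ≤ C₁

section Compat

variable (T : ι → Module.End ℤ J) (a : ι → ℤ) (M : AddSubgroup J)

/-- `T i` as an additive endomorphism. -/
def TA (i : ι) : AddMonoid.End J := (T i).toAddMonoidHom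

theorem TA_apply (i : ι) (z : J) : TA T i z = T i z := rfl

variable (hTM : ∀ i, ∀ z ∈ M, TA T i z ∈ M)

/-- the restriction of the `T i` to `M`, as additive endomorphisms of `↥M`. -/
noncomputable def resEnd (i : ι) : AddMonoid.End ↥M := resT M (TA T) hTM i

theorem coe_resEnd (i : ι) (y : M) : ((resEnd T M hTM i y : M) : J) = T i (y : J) := rfl

/-- the product of the Eisenstein operators on `M` is the restriction of `mProd`. -/
theorem coe_eProd_resEnd (l : List ι) (y : M) :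
    ((eProd (resEnd T M hTM) a l y : M) : J) = mProd T a l (y : J) := by
  induction l generalizing y with
  | nil =>
    unfold eProd mProd
    simp
  | cons i l ih =>
    have h1 : eProd (resEnd T M hTM) a (i :: l) y =
        eOp (resEnd T M hTM) a i (eProd (resEnd T M hTM) a l y) := by
      unfold eProd
      rw [List.map_cons, List.prod_cons]
      rfl
    have h2 : mProd T a (i :: l) (y : J) =
        (T i - a i • (1 : Module.End ℤ J)) (mProd T a l (y : J)) := by
      unfold mProd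
      rw [List.map_cons, List.prod_cons]
      rfl
    rw [h1, h2, eOp_apply, ← ih, LinearMap.sub_apply, LinearMap.smul_apply,
      Module.End.one_apply]
    rfl

end Compat

/-- **NAK + GROW + the Selmer bound.** -/
theorem exists_adjoin_kill_of_sel (MW : AddSubgroup J) (T : ι → Module.End ℤ J) (a : ι → ℤ)
    (hfg : MW.FG) (hT : ∀ i, ∀ z ∈ MW, T i z ∈ MW)
    (hcomm : ∀ i j, ∀ z ∈ MW, IsOfFinAddOrder (T i (T j z) - T j (T i z)))
    (r : ℕ) (hr : r.Prime) (hsel : SelHypAbs MW T a r) :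
    ∃ t ∈ Algebra.adjoin ℤ (Set.range T), ∃ e : ℤ, ¬ (r : ℤ) ∣ e ∧
      (∀ c : J, (∀ i, T i c = a i • c) → t c = e • c) ∧ ∀ z ∈ MW, IsOfFinAddOrder (t z) := by
  classical
  obtain ⟨n', C₁, hn', hsel⟩ := hsel
  -- the exponent of the torsion of `MW`
  have hfgMW : AddGroup.FG ↥MW := (AddGroup.fg_iff_addSubgroup_fg MW).mpr hfg
  have hfin : Module.Finite ℤ ↥MW := Module.Finite.iff_addGroup_fg.mpr hfgMW
  obtain ⟨e₀, he₀, hexp⟩ := Fermat.Agent.GZ.HComm.exists_torsion_exponent (M := ↥MW)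
  have hexp' : ∀ z ∈ MW, IsOfFinAddOrder z → e₀ • z = 0 := by
    intro z hz hfo
    have h1 : IsOfFinAddOrder (⟨z, hz⟩ : ↥MW) := by
      rw [← AddSubmonoid.isOfFinAddOrder_coe (H := MW.toAddSubmonoid)]
      exact hfo
    have := congrArg Subtype.val (hexp ⟨z, hz⟩ h1)
    simpa using this
  set n'' : ℕ := n' * e₀ with hn''
  have hn''pos : 0 < n'' := Nat.mul_pos hn' he₀
  -- the subgroup `M`
  set M : AddSubgroup J := MW.map (nsmulAddMonoidHom (α := J) n'') with hM
  have hmemM : ∀ y, y ∈ M ↔ ∃ z ∈ MW, n'' • z = y := by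
    intro y
    rw [hM, AddSubgroup.mem_map]
    rfl
  have hMle : M ≤ MW := by
    intro y hy
    obtain ⟨z, hz, rfl⟩ := (hmemM y).mp hy
    exact MW.nsmul_mem hz _
  have hMtf : ∀ y ∈ M, IsOfFinAddOrder y → y = 0 := by
    intro y hy hfo
    obtain ⟨z, hz, rfl⟩ := (hmemM y).mp hy
    have hzfo : IsOfFinAddOrder z := hfo.of_nsmul hn''pos.ne'
    rw [hn'', mul_smul, hexp' z hz hzfo, smul_zero]
  have hMfg : M.FG := by
    rw [← AddGroup.fg_iff_addSubgroup_fg]
    haveI := hfgMW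
    let f : ↥MW →+ ↥M := ((nsmulAddMonoidHom (α := J) n'').comp MW.subtype).codRestrict M
      (fun z => (hmemM _).mpr ⟨z, z.2, rfl⟩)
    refine AddGroup.fg_of_surjective (f := f) ?_
    rintro ⟨y, hy⟩
    obtain ⟨z, hz, rfl⟩ := (hmemM y).mp hy
    exact ⟨⟨z, hz⟩, Subtype.ext rfl⟩
  -- the operators
  have hTM : ∀ i, ∀ z ∈ M, TA T i z ∈ M := by
    intro i y hy
    obtain ⟨z, hz, rfl⟩ := (hmemM y).mp hy
    refine (hmemM _).mpr ⟨T i z, hT i z hz, ?_⟩
    rw [TA_apply, map_nsmul]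
  have hcommM : ∀ i j, ∀ z ∈ M, IsOfFinAddOrder (TA T i (TA T j z) - TA T j (TA T i z)) :=
    fun i j z hz => hcomm i j z (hMle hz)
  -- exact commutation on `M`
  have hcommM' : ∀ i j, ∀ z ∈ M, TA T i (TA T j z) = TA T j (TA T i z) := by
    intro i j z hz
    have h1 : TA T i (TA T j z) - TA T j (TA T i z) ∈ M :=
      M.sub_mem (hTM i _ (hTM j z hz)) (hTM j _ (hTM i z hz))
    exact sub_eq_zero.mp (hMtf _ h1 (hcommM i j z hz))
  -- the hypothesis of NAK from GROW
  have hker : ∀ z ∈ M, (∀ i, ∃ w ∈ M, IsOfFinAddOrder (TA T i z - a i • z - r • w)) →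
      ∃ w ∈ M, IsOfFinAddOrder (z - r • w) := by
    have hfgM : AddGroup.FG ↥M := (AddGroup.fg_iff_addSubgroup_fg M).mpr hMfg
    have hS : ∀ i j, Commute (resEnd T M hTM i) (resEnd T M hTM j) := by
      intro i j
      refine AddMonoidHom.ext fun z => Subtype.ext ?_
      exact hcommM' i j z z.2
    have htf : ∀ (n : ℕ) (z : ↥M), n ≠ 0 → n • z = 0 → z = 0 := by
      intro n z hn hz
      apply Subtype.ext
      refine hMtf z z.2 ?_
      refine isOfFinAddOrder_iff_nsmul_eq_zero.mpr ⟨n, Nat.pos_of_ne_zero hn, ?_⟩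
      have := congrArg Subtype.val hz
      simpa using this
    -- the subgroups `A k`
    let A : ℕ → AddSubgroup ↥M := fun k =>
      { carrier := {x | ∃ w ∈ MW, (x : J) = r ^ k • w}
        zero_mem' := ⟨0, MW.zero_mem, by simp⟩
        add_mem' := by
          rintro x x' ⟨w, hw, hx⟩ ⟨w', hw', hx'⟩
          exact ⟨w + w', MW.add_mem hw hw', by
            rw [AddSubgroup.coe_add, hx, hx', smul_add]⟩
        neg_mem' := by
          rintro x ⟨w, hw, hx⟩
          exact ⟨-w, MW.neg_mem hw, by rw [AddSubgroup.coe_neg, hx, smul_neg]⟩ }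
    have hA : ∀ (k : ℕ) (x : ↥M), x ∈ A k → ∃ w : ↥M, x = r ^ (k - n'') • w := by
      intro k x hx
      obtain ⟨w, hw, hxw⟩ := hx
      obtain ⟨u, hu, hxu⟩ := (hmemM _).mp x.2
      by_cases hk : k ≤ n''
      · exact ⟨x, by rw [Nat.sub_eq_zero_of_le hk, pow_zero, one_smul]⟩
      push Not at hk
      -- `g = gcd(n'', r^k) = r^j`
      obtain ⟨j, hjk, hj⟩ := (Nat.dvd_prime_pow hr).mp (Nat.gcd_dvd_right n'' (r ^ k))
      have hjn : j ≤ n'' := by
        have h1 : r ^ j ∣ n'' := hj ▸ Nat.gcd_dvd_left n'' (r ^ k)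
        have h2 : r ^ j ≤ n'' := Nat.le_of_dvd hn''pos h1
        exact (Nat.lt_pow_self hr.one_lt).le.trans h2
      -- Bezout
      have hbez : ((Nat.gcd n'' (r ^ k) : ℕ) : ℤ) =
          (n'' : ℤ) * Nat.gcdA n'' (r ^ k) + ((r ^ k : ℕ) : ℤ) * Nat.gcdB n'' (r ^ k) :=
        Nat.gcd_eq_gcd_ab n'' (r ^ k)
      set α : ℤ := Nat.gcdA n'' (r ^ k)
      set β : ℤ := Nat.gcdB n'' (r ^ k)
      -- `r^j u = r^k (α w + β u)`
      have h1 : (r ^ j : ℕ) • u = (r ^ k : ℕ) • (α • w + β • u) := by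
        have : ((r ^ j : ℕ) : ℤ) • u = ((r ^ k : ℕ) : ℤ) • (α • w + β • u) := by
          have e1 : ((n'' : ℤ) * α) • u = α • ((r ^ k : ℕ) : ℤ) • w := by
            rw [mul_comm, mul_smul, natCast_zsmul, hxu, hxw, natCast_zsmul]
          have e2 : (((r ^ k : ℕ) : ℤ) * β) • u = ((r ^ k : ℕ) : ℤ) • β • u := mul_smul _ _ _
          rw [← hj, hbez, add_smul, e1, e2, smul_add, smul_comm α]
        rwa [natCast_zsmul, natCast_zsmul] at this
      -- the torsion element
      set t : J := u - r ^ (k - j) • (α • w + β • u) with ht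
      have hyMW : α • w + β • u ∈ MW := MW.add_mem (MW.zsmul_mem hw _) (MW.zsmul_mem hu _)
      have htMW : t ∈ MW := MW.sub_mem hu (MW.nsmul_mem hyMW _)
      have htt : r ^ j • t = 0 := by
        rw [ht, smul_sub, smul_smul, ← pow_add, Nat.add_sub_cancel' hjk, h1, sub_self]
      have htfo : IsOfFinAddOrder t :=
        isOfFinAddOrder_iff_nsmul_eq_zero.mpr ⟨r ^ j, pow_pos hr.pos j, htt⟩
      have hnt : n'' • t = 0 := by
        rw [hn'', mul_smul, hexp' t htMW htfo, smul_zero]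
      -- conclusion
      set w₀ : J := r ^ (n'' - j) • (α • w + β • u) with hw₀
      have hw₀MW : w₀ ∈ MW := MW.nsmul_mem hyMW _
      refine ⟨⟨n'' • w₀, (hmemM _).mpr ⟨w₀, hw₀MW, rfl⟩⟩, Subtype.ext ?_⟩
      rw [AddSubgroup.coe_nsmul]
      show (x : J) = r ^ (k - n'') • n'' • w₀
      have hu' : u = t + r ^ (k - j) • (α • w + β • u) := by rw [ht]; abel
      rw [← hxu]
      conv_lhs => rw [hu']
      rw [smul_add, hnt, zero_add, hw₀, smul_comm (r ^ (k - n'')) n'', smul_smul (r ^ (k - n'')),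
        ← pow_add]
      congr 3
      omega
    -- the bound
    have hbnd : ∀ k : ℕ, ∀ Y : AddSubgroup ↥M, (∀ z : ↥M, r ^ k • z ∈ Y) →
        (∀ i, ∀ y ∈ Y, resEnd T M hTM i y ∈ Y) →
        (∃ n : ℕ, ∀ l : List ι, l.length = n → ∀ y ∈ Y, ∃ w : ↥M,
          eProd (resEnd T M hTM) a l y = r ^ k • w) →
        ∀ (m : ℕ) (y : Fin m → ↥M), (∀ j, y j ∈ Y) →
          (∀ j j', j ≠ j' → y j - y j' ∉ A k) → m ≤ C₁ := by
      intro k Y _ hY2 hY3 m y hyY hinc
      obtain ⟨N, hN⟩ := hY3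
      refine hsel k (Y.map M.subtype) ?_ ?_ ?_ m (fun j => (y j : J)) ?_ ?_
      · rintro _ ⟨y, -, rfl⟩
        obtain ⟨z, hz, hzy⟩ := (hmemM _).mp y.2
        refine ⟨e₀ • z, MW.nsmul_mem hz _, ?_⟩
        rw [AddSubgroup.coe_subtype, ← hzy, hn'', mul_smul]
      · rintro i _ ⟨y, hy, rfl⟩
        exact ⟨resEnd T M hTM i y, hY2 _ y hy, rfl⟩
      · refine ⟨N, fun l hl => ?_⟩
        rintro _ ⟨y, hy, rfl⟩
        obtain ⟨w, hw⟩ := hN l hl y hy
        refine ⟨(w : J), hMle w.2, ?_⟩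
        rw [AddSubgroup.coe_subtype, ← coe_eProd_resEnd T a M hTM l y, hw, AddSubgroup.coe_nsmul]
      · exact fun j => ⟨y j, hyY j, rfl⟩
      · intro j j' hjj' ⟨w, hw, hyw⟩
        exact hinc j j' hjj' ⟨w, hw, by rw [AddSubgroup.coe_sub]; exact hyw⟩
    have hgrow := grow_general (resEnd T M hTM) hS htf a r hr C₁ n'' A hA hbnd
    intro z hz hzi
    obtain ⟨w, hw⟩ := hgrow ⟨z, hz⟩ (fun i => by
      obtain ⟨w, hw, hfo⟩ := hzi i
      refine ⟨⟨w, hw⟩, Subtype.ext ?_⟩
      have h1 : TA T i z - a i • z - r • w ∈ M :=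
        M.sub_mem (M.sub_mem (hTM i z hz) (M.zsmul_mem hz _)) (M.nsmul_mem hw _)
      have h2 := hMtf _ h1 hfo
      rw [sub_eq_zero] at h2
      rw [AddSubgroup.coe_sub, AddSubgroup.coe_zsmul, AddSubgroup.coe_nsmul]
      exact h2)
    refine ⟨w, w.2, ?_⟩
    have h1 := congrArg Subtype.val hw
    rw [AddSubgroup.coe_nsmul] at h1
    simp only at h1
    rw [h1, sub_self]
    exact IsOfFinAddOrder.zero
  -- NAK
  obtain ⟨t, ht, e, hre, hte, htM⟩ :=
    exists_adjoin_kill M (TA T) hTM hMfg a r hr hcommM hker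
  -- transport to `Module.End ℤ`
  set φ : AddMonoid.End J →+* Module.End ℤ J := (addMonoidEndRingEquivInt J).toRingHom with hφ
  have hφapp : ∀ (s : AddMonoid.End J) (z : J), φ s z = s z := fun _ _ => rfl
  have hφmem : ∀ s ∈ Algebra.adjoin ℤ (Set.range (TA T)), φ s ∈ Algebra.adjoin ℤ (Set.range T) := by
    intro s hs
    induction hs using Algebra.adjoin_induction with
    | mem x hx =>
      obtain ⟨i, rfl⟩ := hx
      refine Algebra.subset_adjoin ⟨i, ?_⟩
      refine LinearMap.ext fun z => ?_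
      rfl
    | algebraMap n =>
      have : φ (algebraMap ℤ _ n) = algebraMap ℤ _ n := by
        rw [eq_intCast, eq_intCast, map_intCast]
      rw [this]
      exact Subalgebra.algebraMap_mem _ n
    | add x y _ _ hx hy =>
      rw [map_add]
      exact Subalgebra.add_mem _ hx hy
    | mul x y _ _ hx hy =>
      rw [map_mul]
      exact Subalgebra.mul_mem _ hx hy
  refine ⟨φ t, hφmem t ht, e, hre, fun c hc => ?_, fun z hz => ?_⟩
  · rw [hφapp]
    exact hte c fun i => hc i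
  · rw [hφapp]
    have h1 : IsOfFinAddOrder (t (n'' • z)) := htM _ ((hmemM _).mpr ⟨z, hz, rfl⟩)
    rw [map_nsmul] at h1
    exact h1.of_nsmul hn''pos.ne'

end Fermat.Agent.GZ.F.Abs
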