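/-
GATE-Z (S15) / (F) integrator support (helper19): **the `𝔓`-primary part of a finite module**.
Mathlib only.

`R` a commutative ring, `𝔓` an ideal (in the application `𝔓 = ker (ε : ℤ[T_q] → 𝔽_r)`, the
Eisenstein ideal), `W` an `R`-module.

* `part 𝔓 W`          : `{w | ∃ n, 𝔓 ^ n • w = 0}`, an `R`-submodule;
* `exists_projector`  : for FINITE `W` some `e ∈ 1 + 𝔓` acts as the identity on `part 𝔓 W` and maps
                        `W` into `part 𝔓 W` (Fitting + Nakayama);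
* `exists_preimage`   : `(-)_𝔓` is right exact on finite modules;
* `card_part_mul`     : for a short exact sequence of finite modules,
                        `#W₂,𝔓 = #W₁,𝔓 · #W₃,𝔓`;
-/
import Mathlib

set_option autoImplicit false

namespace Fermat.Agent.GZ.F.EpsPart

variable {R : Type*} [CommRing R] (𝔓 : Ideal R)

section Def

variable (W : Type*) [AddCommGroup W] [Module R W]

/-- the `𝔓`-primary part of `W`: the elements killed by a power of `𝔓`. -/
def part : Submodule R W where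
  carrier := {w | ∃ n : ℕ, ∀ f ∈ 𝔓 ^ n, f • w = 0}
  zero_mem' := ⟨0, fun f _ => smul_zero f⟩
  add_mem' := by
    rintro a b ⟨n, hn⟩ ⟨m, hm⟩
    refine ⟨n + m, fun f hf => ?_⟩
    rw [smul_add, hn f (Ideal.pow_le_pow_right (Nat.le_add_right n m) hf),
      hm f (Ideal.pow_le_pow_right (Nat.le_add_left m n) hf), add_zero]
  smul_mem' := by
    rintro c a ⟨n, hn⟩
    exact ⟨n, fun f hf => by rw [smul_comm, hn f hf, smul_zero]⟩

variable {W}

theorem mem_part {w : W} : w ∈ part 𝔓 W ↔ ∃ n : ℕ, ∀ f ∈ 𝔓 ^ n, f • w = 0 := Iff.rfl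

/-- an element killed by `𝔓 ^ n` is killed by `𝔓 ^ m` for `m ≥ n`. -/
theorem smul_eq_zero_of_le {w : W} {n m : ℕ} (h : ∀ f ∈ 𝔓 ^ n, f • w = 0) (hnm : n ≤ m)
    {f : R} (hf : f ∈ 𝔓 ^ m) : f • w = 0 :=
  h f (Ideal.pow_le_pow_right hnm hf)

variable (W)

/-- on a finite module the exponent is uniform. -/
theorem exists_uniform [Finite W] : ∃ n : ℕ, ∀ w ∈ part 𝔓 W, ∀ f ∈ 𝔓 ^ n, f • w = 0 := by
  classical
  have : Fintype (part 𝔓 W) := Fintype.ofFinite _
  refine ⟨Finset.univ.sup fun w : part 𝔓 W => Classical.choose w.2, fun w hw f hf => ?_⟩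
  have h1 := Classical.choose_spec (⟨w, hw⟩ : part 𝔓 W).2
  have h2 : Classical.choose (⟨w, hw⟩ : part 𝔓 W).2 ≤
      Finset.univ.sup fun w : part 𝔓 W => Classical.choose w.2 :=
    Finset.le_sup (f := fun w : part 𝔓 W => Classical.choose w.2)
      (Finset.mem_univ (⟨w, hw⟩ : part 𝔓 W))
  exact smul_eq_zero_of_le 𝔓 h1 h2 hf

end Def

section Maps

variable {W W' : Type*} [AddCommGroup W] [Module R W] [AddCommGroup W'] [Module R W']

/-- a linear map preserves the `𝔓`-parts. -/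
theorem map_mem_part (φ : W →ₗ[R] W') {w : W} (hw : w ∈ part 𝔓 W) : φ w ∈ part 𝔓 W' := by
  obtain ⟨n, hn⟩ := hw
  exact ⟨n, fun f hf => by rw [← map_smul, hn f hf, map_zero]⟩

/-- an injective linear map reflects the `𝔓`-parts. -/
theorem mem_part_of_injective (φ : W →ₗ[R] W') (hφ : Function.Injective φ) {w : W}
    (hw : φ w ∈ part 𝔓 W') : w ∈ part 𝔓 W := by
  obtain ⟨n, hn⟩ := hw
  refine ⟨n, fun f hf => hφ ?_⟩
  rw [map_smul, hn f hf, map_zero]

/-- the `𝔓`-part of a product. -/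
theorem mem_part_prod {x : W × W'} : x ∈ part 𝔓 (W × W') ↔ x.1 ∈ part 𝔓 W ∧ x.2 ∈ part 𝔓 W' := by
  constructor
  · rintro ⟨n, hn⟩
    refine ⟨⟨n, fun f hf => ?_⟩, ⟨n, fun f hf => ?_⟩⟩
    · have := congrArg Prod.fst (hn f hf)
      simpa using this
    · have := congrArg Prod.snd (hn f hf)
      simpa using this
  · rintro ⟨⟨n, hn⟩, ⟨m, hm⟩⟩
    refine ⟨n + m, fun f hf => ?_⟩
    apply Prod.ext
    · simpa using hn f (Ideal.pow_le_pow_right (Nat.le_add_right n m) hf)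
    · simpa using hm f (Ideal.pow_le_pow_right (Nat.le_add_left m n) hf)

end Maps

section Projector

variable (W : Type*) [AddCommGroup W] [Module R W]

/-- the chain `𝔓 ^ n • W`. -/
def chain (n : ℕ) : Submodule R W := (𝔓 ^ n) • (⊤ : Submodule R W)

theorem chain_antitone {n m : ℕ} (h : n ≤ m) : chain 𝔓 W m ≤ chain 𝔓 W n :=
  Submodule.smul_mono_left (Ideal.pow_le_pow_right h)

theorem smul_chain (n : ℕ) : 𝔓 • chain 𝔓 W n = chain 𝔓 W (n + 1) := by
  unfold chain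
  rw [← Submodule.mul_smul, ← pow_succ']

theorem smul_mem_chain {n : ℕ} {f : R} (hf : f ∈ 𝔓 ^ n) (w : W) : f • w ∈ chain 𝔓 W n :=
  Submodule.smul_mem_smul hf Submodule.mem_top

/-- **Fitting + Nakayama**: on a finite module some `e ≡ 1 mod 𝔓` is the projector onto the
`𝔓`-part. -/
theorem exists_projector [Finite W] :
    ∃ e : R, e - 1 ∈ 𝔓 ∧ (∀ w ∈ part 𝔓 W, e • w = w) ∧ ∀ w : W, e • w ∈ part 𝔓 W := by
  classical
  have : IsArtinian R W := isArtinian_of_finite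
  obtain ⟨n1, hn1⟩ := exists_uniform 𝔓 W
  -- the chain stabilises
  obtain ⟨n0, hn0⟩ := IsArtinian.monotone_stabilizes
    (⟨fun n => OrderDual.toDual (chain 𝔓 W n), fun a b hab =>
      OrderDual.toDual_le_toDual.2 (chain_antitone 𝔓 W hab)⟩ : ℕ →o (Submodule R W)ᵒᵈ)
  have hstab : ∀ m, n0 ≤ m → chain 𝔓 W m = chain 𝔓 W n0 := fun m hm =>
    (OrderDual.toDual.injective (hn0 m hm)).symm
  -- Nakayama on the stable part
  have hle : chain 𝔓 W n0 ≤ 𝔓 • chain 𝔓 W n0 := by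
    rw [smul_chain, hstab (n0 + 1) (Nat.le_succ n0)]
  have hfg : (chain 𝔓 W n0).FG := Submodule.FG.of_finite
  obtain ⟨f, hf1, hf⟩ :=
    Submodule.exists_sub_one_mem_and_smul_eq_zero_of_fg_of_le_smul 𝔓 (chain 𝔓 W n0) hfg hle
  set h : R := 1 - f with hh
  have hh𝔓 : h ∈ 𝔓 := by
    have : h = -(f - 1) := by rw [hh]; ring
    rw [this]; exact 𝔓.neg_mem hf1
  set n : ℕ := max n0 n1 + 1 with hn
  have hn0' : n0 ≤ n := le_trans (le_max_left n0 n1) (Nat.le_succ _)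
  have hn1' : n1 ≤ n := le_trans (le_max_right n0 n1) (Nat.le_succ _)
  have hhn : h ^ n ∈ 𝔓 ^ n := Ideal.pow_mem_pow hh𝔓 n
  refine ⟨1 - h ^ n, ?_, ?_, ?_⟩
  · have : (1 - h ^ n) - 1 = -(h ^ n) := by ring
    rw [this]
    refine 𝔓.neg_mem ?_
    rw [hn, pow_succ]
    exact 𝔓.mul_mem_left _ hh𝔓
  · intro w hw
    rw [sub_smul, one_smul, hn1 w hw (h ^ n) (Ideal.pow_le_pow_right hn1' hhn), sub_zero]
  · intro w
    refine ⟨n, fun g hg => ?_⟩
    -- `1 - h ^ n = (∑ h ^ i) * f`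
    have hfac : 1 - h ^ n = (∑ i ∈ Finset.range n, h ^ i) * f := by
      have := geom_sum_mul h n
      have hf' : f = -(h - 1) := by rw [hh]; ring
      rw [hf', mul_neg, this]; ring
    have hgw : g • w ∈ chain 𝔓 W n0 := by
      rw [← hstab n hn0']
      exact smul_mem_chain 𝔓 W hg w
    rw [smul_comm, hfac, mul_smul, hf _ hgw, smul_zero]

end Projector

section Exact

variable {W₁ W₂ W₃ : Type*} [AddCommGroup W₁] [Module R W₁] [AddCommGroup W₂] [Module R W₂]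
  [AddCommGroup W₃] [Module R W₃]

/-- **right exactness of the `𝔓`-part** on finite modules. -/
theorem exists_preimage [Finite W₂] [Finite W₃] (π : W₂ →ₗ[R] W₃) (hπ : Function.Surjective π)
    {w : W₃} (hw : w ∈ part 𝔓 W₃) : ∃ v ∈ part 𝔓 W₂, π v = w := by
  obtain ⟨e, -, he1, he2⟩ := exists_projector 𝔓 (W₂ × W₃)
  obtain ⟨v, rfl⟩ := hπ w
  refine ⟨e • v, ?_, ?_⟩
  · have := he2 (v, 0)
    exact ((mem_part_prod 𝔓).1 this).1
  · have h0 : ((0 : W₂), π v) ∈ part 𝔓 (W₂ × W₃) :=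
      (mem_part_prod 𝔓).2 ⟨(part 𝔓 W₂).zero_mem, hw⟩
    have := congrArg Prod.snd (he1 _ h0)
    rw [map_smul]
    simpa using this

/-- the restriction of a linear map to the `𝔓`-parts. -/
def partMap (π : W₂ →ₗ[R] W₃) : part 𝔓 W₂ →ₗ[R] part 𝔓 W₃ :=
  (π.comp (part 𝔓 W₂).subtype).codRestrict (part 𝔓 W₃) fun v => map_mem_part 𝔓 π v.2

@[simp] theorem coe_partMap (π : W₂ →ₗ[R] W₃) (v : part 𝔓 W₂) :
    ((partMap 𝔓 π v : part 𝔓 W₃) : W₃) = π v := rfl

theorem partMap_surjective [Finite W₂] [Finite W₃] (π : W₂ →ₗ[R] W₃)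
    (hπ : Function.Surjective π) : Function.Surjective (partMap 𝔓 π) := by
  intro w
  obtain ⟨v, hv, hvw⟩ := exists_preimage 𝔓 π hπ w.2
  exact ⟨⟨v, hv⟩, Subtype.ext hvw⟩

/-- **multiplicativity of `#(-)_𝔓`** in short exact sequences of finite modules. -/
theorem card_part_mul [Finite W₂] [Finite W₃] (ι : W₁ →ₗ[R] W₂) (π : W₂ →ₗ[R] W₃)
    (hι : Function.Injective ι) (hπ : Function.Surjective π)
    (hex : ∀ v : W₂, π v = 0 ↔ ∃ u : W₁, ι u = v) :
    Nat.card (part 𝔓 W₂) = Nat.card (part 𝔓 W₁) * Nat.card (part 𝔓 W₃) := by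
  have h1 := Submodule.card_eq_card_quotient_mul_card (LinearMap.ker (partMap 𝔓 π))
  have e3 : (part 𝔓 W₂ ⧸ LinearMap.ker (partMap 𝔓 π)) ≃ₗ[R] part 𝔓 W₃ :=
    LinearMap.quotKerEquivOfSurjective _ (partMap_surjective 𝔓 π hπ)
  -- the kernel is the `𝔓`-part of `W₁`
  have e1 : part 𝔓 W₁ ≃ LinearMap.ker (partMap 𝔓 π) := by
    refine Equiv.ofBijective (fun u => ⟨⟨ι u, map_mem_part 𝔓 ι u.2⟩, ?_⟩) ⟨?_, ?_⟩
    · rw [LinearMap.mem_ker]
      apply Subtype.ext
      rw [coe_partMap]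
      exact (hex _).2 ⟨u, rfl⟩
    · intro a b hab
      have := congrArg (fun x : LinearMap.ker (partMap 𝔓 π) => ((x : part 𝔓 W₂) : W₂)) hab
      exact Subtype.ext (hι this)
    · rintro ⟨⟨v, hv⟩, hker⟩
      rw [LinearMap.mem_ker] at hker
      have hπv : π v = 0 := by
        have := congrArg (fun x : part 𝔓 W₃ => (x : W₃)) hker
        simpa using this
      obtain ⟨u, rfl⟩ := (hex v).1 hπv
      exact ⟨⟨u, mem_part_of_injective 𝔓 ι hι hv⟩, rfl⟩
  rw [h1, Nat.card_congr e1.symm, Nat.card_congr e3.toEquiv]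

end Exact

end Fermat.Agent.GZ.F.EpsPart
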