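/-
GATE-Z (S15) / node (F), TOP (helper20): **`FStmt C S` from the nodes**, hypothesis form.

Inputs:
* `hfg`   : Mordell–Weil, `J₀(p)(ℚ)` finitely generated (S17, on main);
* `hT`    : `T_q (J₀(p)(ℚ)) ⊆ J₀(p)(ℚ)` (HGAL);
* `hcomm` : the `T_q` commute modulo torsion on `J₀(p)(ℚ)` (HCOMM);
* `hsel : SelHyp p S r` : (KUMLOC + SB) — there are `n' > 0` and `C₁` such that for every `k` and
  every Hecke-stable subgroup `Y ⊆ n' • J₀(p)(ℚ)` which is Eisenstein modulo `r^k J₀(p)(ℚ)`, the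
  quotient `Y / (Y ∩ r^k J₀(p)(ℚ))` has at most `C₁` elements (family form);
* `hrc`   : `r ∣ ord c` (UNIT-U2).

The proof is `GZ/F/Abs.exists_adjoin_kill_of_sel` (NAK + GROW, abstract) at `J = J₀(p)`.
-/
import Fermat.Agent.GZ.F.Pin
import Fermat.Agent.GZ.F.Abs

set_option autoImplicit false

noncomputable section

open AlgebraicCurve ModularCurve

namespace Fermat.Agent.GZ.F

open Fermat.Agent.GZ.Top Fermat.Agent.GZ.F.Abs

local notation "GQ" => (AlgebraicClosure ℚ ≃ₐ[ℚ] AlgebraicClosure ℚ)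

/-- the good primes `q ∉ S`, `q ≠ p`. -/
abbrev GoodPrime (p : ℕ) (S : Finset ℕ) : Type := {q : Nat.Primes // (q : ℕ) ∉ S ∧ (q : ℕ) ≠ p}

variable (p : ℕ) [NeZero p]

/-- `T_q` for a good prime. -/
def TG (S : Finset ℕ) (i : GoodPrime p S) : Module.End ℤ (JZero p) := heckeOperatorBar p i.1

/-- the Eisenstein eigenvalue `q + 1`. -/
def aEis (S : Finset ℕ) (i : GoodPrime p S) : ℤ := ((i.1 : ℕ) : ℤ) + 1

/-- **(KUMLOC + SB)**: the uniform bound on the Eisenstein part of `n' MW / r^k MW`. -/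
def SelHyp (S : Finset ℕ) (r : ℕ) : Prop :=
  ∃ n' C₁ : ℕ, 0 < n' ∧ ∀ (k : ℕ) (Y : AddSubgroup (JZero p)),
    (∀ y ∈ Y, ∃ z ∈ MW p, y = n' • z) →
    (∀ q : Nat.Primes, (q : ℕ) ∉ S → (q : ℕ) ≠ p → ∀ y ∈ Y, heckeOperatorBar p q y ∈ Y) →
    (∃ N : ℕ, ∀ l : List Nat.Primes, l.length = N → GoodList p S l → ∀ y ∈ Y,
      ∃ w ∈ MW p, eisProd p l y = r ^ k • w) →
    ∀ (m : ℕ) (y : Fin m → JZero p), (∀ j, y j ∈ Y) →
      (∀ j j', j ≠ j' → ¬ ∃ w ∈ MW p, y j - y j' = r ^ k • w) → m ≤ C₁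

variable {p}

/-- the list of primes underlying a list of good primes is good. -/
theorem goodList_map_val (S : Finset ℕ) (l : List (GoodPrime p S)) :
    GoodList p S (l.map Subtype.val) := by
  intro q hq
  obtain ⟨i, -, rfl⟩ := List.mem_map.mp hq
  exact i.2

/-- the abstract product of Eisenstein operators is `eisProd`. -/
theorem mProd_eq_eisProd (S : Finset ℕ) (l : List (GoodPrime p S)) :
    mProd (TG p S) (aEis p S) l = eisProd p (l.map Subtype.val) := by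
  unfold mProd eisProd
  rw [List.map_map]
  rfl

/-- the concrete Selmer bound gives the abstract one. -/
theorem selHypAbs_of_selHyp (S : Finset ℕ) (r : ℕ) (h : SelHyp p S r) :
    SelHypAbs (MW p) (TG p S) (aEis p S) r := by
  obtain ⟨n', C₁, hn', h⟩ := h
  refine ⟨n', C₁, hn', fun k Y hY1 hY2 hY3 m y hyY hinc => ?_⟩
  refine h k Y hY1 (fun q hqS hqp y hy => hY2 ⟨q, hqS, hqp⟩ y hy) ?_ m y hyY hinc
  obtain ⟨N, hN⟩ := hY3
  refine ⟨N, fun l hl hgood y hy => ?_⟩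
  -- the list of good primes
  set l' : List (GoodPrime p S) := l.pmap (fun q hq => (⟨q, hq⟩ : GoodPrime p S)) hgood with hl'
  have h1 : l'.map Subtype.val = l := by
    rw [hl', List.map_pmap]
    simp
  have h2 : l'.length = N := by rw [hl', List.length_pmap, hl]
  obtain ⟨w, hw, hyw⟩ := hN l' h2 y hy
  refine ⟨w, hw, ?_⟩
  rw [mProd_eq_eisProd, h1] at hyw
  exact hyw

/-- **(F) from the nodes.** -/
theorem fStmt_of_nodes (C : CuspPkg p) (S : Finset ℕ) (r : ℕ) (hr : r.Prime)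
    (hrc : r ∣ addOrderOf C.c)
    (hfg : AddGroup.FG ↥(MW p))
    (hT : ∀ i : GoodPrime p S, ∀ z ∈ MW p, heckeOperatorBar p i.1 z ∈ MW p)
    (hcomm : ∀ i j : GoodPrime p S, ∀ z ∈ MW p,
      IsOfFinAddOrder (heckeOperatorBar p i.1 (heckeOperatorBar p j.1 z) -
        heckeOperatorBar p j.1 (heckeOperatorBar p i.1 z)))
    (hsel : SelHyp p S r) : FStmt C S := by
  have hfg' : (MW p).FG := (AddGroup.fg_iff_addSubgroup_fg _).mp hfg
  obtain ⟨t, ht, e, hre, hte, htMW⟩ :=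
    exists_adjoin_kill_of_sel (MW p) (TG p S) (aEis p S) hfg' hT hcomm r hr
      (selHypAbs_of_selHyp S r hsel)
  have hsub : Set.range (TG p S) ⊆ heckeGens p S := by
    rintro _ ⟨i, rfl⟩
    exact ⟨i.1, i.2.1, i.2.2, rfl⟩
  refine ⟨r, hr, hrc, t, Algebra.adjoin_mono hsub ht, e, ?_, hre, fun z hz => ?_⟩
  · refine hte C.c fun i => ?_
    show heckeOperatorBar p i.1 C.c = aEis p S i • C.c
    have := C.hecke i.1 i.2.2
    rw [CuspPkg.c, this, aEis, ← natCast_zsmul]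
    push_cast
    rfl
  · exact htMW z ((mem_MW p).mpr hz)

end Fermat.Agent.GZ.F
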