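/-
GATE-Z (S15) / node (F), PLUG (helper67): **`FStmt C S` from `SelHyp p S r` and `r ∣ ord c` ALONE.**

`GZ/F/FOfNodes.fStmt_of_nodes` (helper20) with its binders `hfg`, `hT`, `hcomm` discharged:
* `hfg`   := frozen S17 (`Fermat.Agent.S17.result`);
* `hT`    := (HGAL)  `GZ/HGal/Main.heckeOperatorBar_mem_fixedPoints` (helper42);
* `hcomm` := (HCOMM) `GZ/HCommFinal.hecke_comm` (helper67; HGAL + HECKE-TORS helper36 + DIV helper87).
-/
import Fermat.Agent.GZ.F.FOfNodes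
import Fermat.Agent.GZ.HCommFinal

set_option autoImplicit false

noncomputable section

open AlgebraicCurve ModularCurve

namespace Fermat.Agent.GZ.F.FOfSel

local notation "GQ" => (AlgebraicClosure ℚ ≃ₐ[ℚ] AlgebraicClosure ℚ)

/-- **(F) from (KUMLOC + SB) and (U2)**, at prime level `p ≥ 5`. -/
theorem fStmt_of_sel (p : ℕ) [NeZero p] (hp : p.Prime) (hp5 : 5 ≤ p) (C : Top.CuspPkg p)
    (S : Finset ℕ) (r : ℕ) (hr : r.Prime) (hrc : r ∣ addOrderOf C.c) (hsel : F.SelHyp p S r) :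
    Top.FStmt C S :=
  F.fStmt_of_nodes C S r hr hrc (Fermat.Agent.S17.result p hp hp5)
    (fun i _ hz => HGal.heckeOperatorBar_mem_fixedPoints p i.1 hz)
    (HCommFinal.hecke_comm p hp hp5 (fun i : F.GoodPrime p S => i.1) (fun i => i.2.2))
    hsel

/-- existential form: some prime `r ∣ ord c` with `SelHyp p S r`. -/
theorem fStmt_of_exists_sel (p : ℕ) [NeZero p] (hp : p.Prime) (hp5 : 5 ≤ p) (C : Top.CuspPkg p)
    (S : Finset ℕ) (h : ∃ r : ℕ, r.Prime ∧ r ∣ addOrderOf C.c ∧ F.SelHyp p S r) :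
    Top.FStmt C S := by
  obtain ⟨r, hr, hrc, hsel⟩ := h
  exact fStmt_of_sel p hp hp5 C S r hr hrc hsel

end Fermat.Agent.GZ.F.FOfSel
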