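/-
GATE-Z (S15) / node (F), file 1 (helper20): **(F-GROW)** — bounded Eisenstein parts of `N / r^k N`
force the Nakayama hypothesis of `GZ/Nak`.  Mathlib + `GZ/Nak` (for `polyHom`) only.

`N` a finitely generated torsion-free abelian group, `S i` commuting endomorphisms, `a i : ℤ`, `r` a
prime.  Call a subgroup `Y ⊇ r^k N` EISENSTEIN mod `r^k N` if it is `S`-stable and some fixed number
`n` of operators `S i − a i` always maps `Y` into `r^k N`.  If `#(Y / r^k N) ≤ C` for all `k` and all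
such `Y` (this is what the Selmer bound gives), then `N / r N` has no common eigenvector
(`S i ≡ a i`): `∀ z, (∀ i, S i z − a i z ∈ r N) → z ∈ r N` — the hypothesis `hN` of
`Nak.exists_poly_kill`.

Proof: if `z ∉ r N` is such an eigenvector, Nakayama (Cayley–Hamilton form) on the stable value
`X'` of the chain `𝔪ⁿ (N / r^k N)`, `𝔪 = (X_i − a_i)`, gives a polynomial `e ≡ 1 mod 𝔪` killing `X'`;
then `e z ≡ z mod r N` generates a subgroup of order `r^k` in the Eisenstein part of `N / r^k N`.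
-/
import Mathlib
import Fermat.Agent.GZ.Nak

set_option autoImplicit false

namespace Fermat.Agent.GZ.F.Grow

open Fermat.Agent.GZ.Nak

section Core

variable {ι N : Type*} [AddCommGroup N] (S : ι → AddMonoid.End N)
  (hS : ∀ i j, Commute (S i) (S j))

/-- the Eisenstein operator `S i − a i`. -/
def eOp (a : ι → ℤ) (i : ι) : AddMonoid.End N := S i - (a i : AddMonoid.End N)

theorem eOp_apply (a : ι → ℤ) (i : ι) (z : N) : eOp S a i z = S i z - a i • z := by
  unfold eOp
  show S i z - (a i : AddMonoid.End N) z = S i z - a i • z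
  rw [AddMonoid.End.intCast_apply]

/-- the product of the Eisenstein operators along a list. -/
def eProd (a : ι → ℤ) (l : List ι) : AddMonoid.End N := (l.map (eOp S a)).prod

/-- the polynomial `∏ (X_i − a_i)` along a list. -/
noncomputable def ePoly (a : ι → ℤ) (l : List ι) : MvPolynomial ι ℤ :=
  (l.map fun i => MvPolynomial.X i - MvPolynomial.C (a i)).prod

theorem polyHom_ePoly (a : ι → ℤ) (l : List ι) : polyHom S hS (ePoly a l) = eProd S a l := by
  unfold ePoly eProd
  induction l with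
  | nil => simp
  | cons i l ih =>
    rw [List.map_cons, List.prod_cons, map_mul, ih, List.map_cons, List.prod_cons]
    congr 1
    rw [map_sub, polyHom_X, polyHom_C]
    rfl

theorem ePoly_mem_pow (a : ι → ℤ) (l : List ι) :
    ePoly a l ∈ (Ideal.span (Set.range fun i => (MvPolynomial.X i - MvPolynomial.C (a i) :
      MvPolynomial ι ℤ))) ^ l.length := by
  unfold ePoly
  induction l with
  | nil => simp
  | cons i l ih =>
    rw [List.map_cons, List.prod_cons, List.length_cons, pow_succ']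
    exact Ideal.mul_mem_mul (Ideal.subset_span ⟨i, rfl⟩) ih

end Core

section Main

variable {ι N : Type*} [AddCommGroup N] [AddGroup.FG N] (S : ι → AddMonoid.End N)
  (hS : ∀ i j, Commute (S i) (S j))

include hS in
/-- **(F-GROW)**. -/
theorem grow_core (htf : ∀ (n : ℕ) (z : N), n ≠ 0 → n • z = 0 → z = 0)
    (a : ι → ℤ) (r : ℕ) (hr : r.Prime) (C : ℕ)
    (hbnd : ∀ k : ℕ, ∀ Y : AddSubgroup N, (∀ z : N, r ^ k • z ∈ Y) →
      (∀ i, ∀ y ∈ Y, S i y ∈ Y) →
      (∃ n : ℕ, ∀ l : List ι, l.length = n → ∀ y ∈ Y, ∃ w : N, eProd S a l y = r ^ k • w) →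
      ∀ (m : ℕ) (y : Fin m → N), (∀ j, y j ∈ Y) →
        (∀ j j', j ≠ j' → ¬ ∃ w : N, y j - y j' = r ^ k • w) → m ≤ C) :
    ∀ z : N, (∀ i, ∃ w : N, S i z - a i • z = r • w) → ∃ w : N, z = r • w := by
  classical
  intro z hz
  by_contra hzr
  -- the module structure
  letI := polyModule S hS
  have hst : IsScalarTower ℤ (MvPolynomial ι ℤ) N := ⟨fun n P z => by
    show polyHom S hS (n • P) z = n • polyHom S hS P z
    rw [map_zsmul]
    rfl⟩
  have : Module.Finite ℤ N := Module.Finite.iff_addGroup_fg.mpr ‹_›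
  have : Module.Finite (MvPolynomial ι ℤ) N := Module.Finite.of_restrictScalars_finite ℤ _ N
  -- choose `k`
  set k : ℕ := C with hk
  have hkC : C < r ^ k := Nat.lt_pow_self hr.one_lt
  let ρ : MvPolynomial ι ℤ := MvPolynomial.C ((r ^ k : ℕ) : ℤ)
  have hρsmul : ∀ z : N, ρ • z = r ^ k • z := by
    intro z
    show polyHom S hS (MvPolynomial.C ((r ^ k : ℕ) : ℤ)) z = r ^ k • z
    rw [polyHom_C, AddMonoid.End.intCast_apply, natCast_zsmul]
  set Nρ : Submodule (MvPolynomial ι ℤ) N :=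
    LinearMap.range (LinearMap.lsmul (MvPolynomial ι ℤ) N ρ) with hNρ
  have hmem : ∀ z : N, z ∈ Nρ ↔ ∃ w : N, z = r ^ k • w := by
    intro z
    rw [hNρ, LinearMap.mem_range]
    constructor
    · rintro ⟨w, hw⟩
      exact ⟨w, by rw [← hρsmul]; exact hw.symm⟩
    · rintro ⟨w, hw⟩
      exact ⟨w, by rw [hw, ← hρsmul]; rfl⟩
  have hfin : Finite (N ⧸ Nρ) := by
    have : AddGroup.FG (N ⧸ Nρ) :=
      AddGroup.fg_of_surjective (f := (Nρ.mkQ : N →ₗ[MvPolynomial ι ℤ] N ⧸ Nρ).toAddMonoidHom)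
        (Submodule.mkQ_surjective Nρ)
    refine AddCommGroup.finite_of_fg_isAddTorsion _ fun v => ?_
    obtain ⟨z, rfl⟩ := Submodule.Quotient.mk_surjective Nρ v
    refine isOfFinAddOrder_iff_nsmul_eq_zero.mpr ⟨r ^ k, pow_pos hr.pos k, ?_⟩
    rw [← Submodule.Quotient.mk_smul, Submodule.Quotient.mk_eq_zero, hmem]
    exact ⟨z, rfl⟩
  -- the ideal and the stable value of the chain
  set 𝔪 : Ideal (MvPolynomial ι ℤ) :=
    Ideal.span (Set.range fun i => (MvPolynomial.X i - MvPolynomial.C (a i) :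
      MvPolynomial ι ℤ)) with h𝔪
  let f : ℕ →o (Submodule (MvPolynomial ι ℤ) (N ⧸ Nρ))ᵒᵈ :=
    ⟨fun n => OrderDual.toDual (𝔪 ^ n • (⊤ : Submodule (MvPolynomial ι ℤ) (N ⧸ Nρ))), by
      intro n n' hnn'
      show 𝔪 ^ n' • (⊤ : Submodule (MvPolynomial ι ℤ) (N ⧸ Nρ)) ≤ 𝔪 ^ n • ⊤
      exact Submodule.smul_mono_left (Ideal.pow_le_pow_right hnn')⟩
  obtain ⟨n₁, hn₁⟩ := IsArtinian.monotone_stabilizes f
  set X' : Submodule (MvPolynomial ι ℤ) (N ⧸ Nρ) := 𝔪 ^ n₁ • ⊤ with hX'
  have hX'le : X' ≤ 𝔪 • X' := by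
    have h1 : 𝔪 ^ n₁ • (⊤ : Submodule (MvPolynomial ι ℤ) (N ⧸ Nρ)) = 𝔪 ^ (n₁ + 1) • ⊤ :=
      congrArg OrderDual.ofDual (hn₁ (n₁ + 1) (Nat.le_succ n₁))
    rw [hX', ← Submodule.mul_smul, ← pow_succ', ← h1]
  have hX'fg : X'.FG := IsNoetherian.noetherian X'
  obtain ⟨e, he𝔪, heX'⟩ :=
    Submodule.exists_sub_one_mem_and_smul_eq_zero_of_fg_of_le_smul 𝔪 X' hX'fg hX'le
  -- `r N` is a submodule containing `𝔪 z`
  have h𝔪z : ∀ P ∈ 𝔪, ∃ w : N, P • z = r • w := by
    intro P hP
    rw [h𝔪] at hP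
    induction hP using Submodule.span_induction with
    | mem x hx =>
      obtain ⟨i, rfl⟩ := hx
      obtain ⟨w, hw⟩ := hz i
      refine ⟨w, ?_⟩
      show polyHom S hS (MvPolynomial.X i - MvPolynomial.C (a i)) z = r • w
      rw [map_sub, polyHom_X, polyHom_C]
      show S i z - (a i : AddMonoid.End N) z = r • w
      rw [AddMonoid.End.intCast_apply]
      exact hw
    | zero => exact ⟨0, by simp⟩
    | add x y _ _ hx hy =>
      obtain ⟨wx, hwx⟩ := hx
      obtain ⟨wy, hwy⟩ := hy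
      exact ⟨wx + wy, by rw [add_smul, hwx, hwy, smul_add]⟩
    | smul c x _ hx =>
      obtain ⟨wx, hwx⟩ := hx
      refine ⟨c • wx, ?_⟩
      rw [smul_eq_mul, mul_smul, hwx]
      show polyHom S hS c (r • wx) = r • polyHom S hS c wx
      rw [map_nsmul]
  -- the element `y₀ = e z`
  set y₀ : N := e • z with hy₀
  have hy₀r : ¬ ∃ w : N, y₀ = r • w := by
    rintro ⟨w, hw⟩
    obtain ⟨w', hw'⟩ := h𝔪z (e - 1) he𝔪
    apply hzr
    refine ⟨w - w', ?_⟩
    rw [smul_sub, ← hw, ← hw', hy₀, sub_smul, one_smul]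
    abel
  -- the subgroup `Y`
  let Y : AddSubgroup N :=
    { carrier := {y | ∀ l : List ι, l.length = n₁ → ∃ w : N, eProd S a l y = r ^ k • w}
      zero_mem' := fun l _ => ⟨0, by simp⟩
      add_mem' := by
        intro y y' hy hy' l hl
        obtain ⟨w, hw⟩ := hy l hl
        obtain ⟨w', hw'⟩ := hy' l hl
        exact ⟨w + w', by rw [map_add, hw, hw', smul_add]⟩
      neg_mem' := by
        intro y hy l hl
        obtain ⟨w, hw⟩ := hy l hl
        exact ⟨-w, by rw [map_neg, hw, smul_neg]⟩ }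
  have hY1 : ∀ z : N, r ^ k • z ∈ Y := by
    intro z l _
    exact ⟨eProd S a l z, by rw [map_nsmul]⟩
  have hcomm : ∀ (i : ι) (l : List ι), Commute (S i) (eProd S a l) := by
    intro i l
    unfold eProd
    refine Commute.list_prod_right _ _ fun x hx => ?_
    obtain ⟨j, -, rfl⟩ := List.mem_map.mp hx
    unfold eOp
    exact (hS i j).sub_right (Int.cast_commute _ _).symm
  have hY2 : ∀ i, ∀ y ∈ Y, S i y ∈ Y := by
    intro i y hy l hl
    obtain ⟨w, hw⟩ := hy l hl
    refine ⟨S i w, ?_⟩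
    have := congrArg (fun φ : AddMonoid.End N => φ y) (hcomm i l).eq
    have h' : S i (eProd S a l y) = eProd S a l (S i y) := this
    rw [← h', hw, map_nsmul]
  have hY3 : ∃ n : ℕ, ∀ l : List ι, l.length = n → ∀ y ∈ Y, ∃ w : N,
      eProd S a l y = r ^ k • w := ⟨n₁, fun l hl y hy => hy l hl⟩
  have hy₀Y : y₀ ∈ Y := by
    intro l hl
    -- `∏ (X_i − a_i) z` lands in `X'` modulo `r^k N`
    have h1 : (Submodule.Quotient.mk (ePoly a l • z) : N ⧸ Nρ) ∈ X' := by
      rw [hX', Submodule.Quotient.mk_smul]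
      refine Submodule.smul_mem_smul ?_ trivial
      rw [← hl]
      exact ePoly_mem_pow a l
    have h2 := heX' _ h1
    rw [← Submodule.Quotient.mk_smul, Submodule.Quotient.mk_eq_zero, hmem] at h2
    obtain ⟨w, hw⟩ := h2
    refine ⟨w, ?_⟩
    rw [← hw, ← polyHom_ePoly S hS, hy₀]
    show ePoly a l • e • z = e • ePoly a l • z
    rw [smul_smul, smul_smul, mul_comm]
  -- `r^k` incongruent elements
  have hinc := hbnd k Y hY1 hY2 hY3 (r ^ k) (fun j => (j : ℕ) • y₀)
    (fun j => Y.nsmul_mem hy₀Y _) (by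
      intro j j' hjj' ⟨w, hw⟩
      -- wlog `j' < j`
      have key : ∀ (d : ℕ), 0 < d → d < r ^ k → ∀ w : N, d • y₀ = r ^ k • w → False := by
        intro d hd0 hdlt w hw
        obtain ⟨s, d', hd', hdeq⟩ := Nat.exists_eq_pow_mul_and_not_dvd hd0.ne' r hr.one_lt.ne'
        have hsk : s < k := by
          by_contra hks
          push Not at hks
          have : r ^ k ∣ d := by
            rw [hdeq]
            exact Dvd.dvd.mul_right (pow_dvd_pow r hks) d'
          exact absurd (Nat.le_of_dvd hd0 this) (by omega)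
        -- `r^s (d' y₀ − r^(k−s) w) = 0`
        have h3 : r ^ s • (d' • y₀ - r ^ (k - s) • w) = 0 := by
          rw [smul_sub, smul_smul, smul_smul, ← hdeq, ← pow_add,
            Nat.add_sub_cancel' hsk.le, hw, sub_self]
        have h4 := htf (r ^ s) _ (pow_pos hr.pos s).ne' h3
        have h5 : d' • y₀ = r • (r ^ (k - s - 1) • w) := by
          rw [sub_eq_zero.mp h4, smul_smul, ← pow_succ']
          congr 2
          omega
        -- `d'` is prime to `r`
        have hcop : Nat.Coprime d' r := (Nat.Coprime.symm ((Nat.Prime.coprime_iff_not_dvd hr).mpr hd'))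
        obtain ⟨u, v, huv⟩ : ∃ u v : ℤ, u * d' + v * r = 1 := by
          have := Int.isCoprime_iff_gcd_eq_one.mpr (by
            rw [Int.gcd_natCast_natCast]; exact hcop)
          obtain ⟨u, v, h⟩ := this
          exact ⟨u, v, h⟩
        apply hy₀r
        refine ⟨u • (r ^ (k - s - 1) • w) + v • y₀, ?_⟩
        have h6 : y₀ = (u * d' + v * r) • y₀ := by rw [huv, one_smul]
        rw [add_smul, mul_smul, mul_smul, natCast_zsmul, natCast_zsmul, h5] at h6
        rw [smul_add]
        conv_lhs => rw [h6]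
        congr 1
        · rw [smul_comm]
        · rw [smul_comm]
      rcases lt_or_gt_of_ne (fun h => hjj' (Fin.ext h) : (j : ℕ) ≠ (j' : ℕ)) with hlt | hlt
      · refine key ((j' : ℕ) - (j : ℕ)) (by omega) (by have := j'.2; omega) (-w) ?_
        rw [smul_neg, ← hw, neg_sub]
        have : (((j' : ℕ) - (j : ℕ) : ℕ) : ℤ) • y₀ = (j' : ℕ) • y₀ - (j : ℕ) • y₀ := by
          rw [Nat.cast_sub hlt.le, sub_smul, natCast_zsmul, natCast_zsmul]
        rw [← this, natCast_zsmul]
      · refine key ((j : ℕ) - (j' : ℕ)) (by omega) (by have := j.2; omega) w ?_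
        rw [← hw]
        have : (((j : ℕ) - (j' : ℕ) : ℕ) : ℤ) • y₀ = (j : ℕ) • y₀ - (j' : ℕ) • y₀ := by
          rw [Nat.cast_sub hlt.le, sub_smul, natCast_zsmul, natCast_zsmul]
        rw [← this, natCast_zsmul])
  omega

end Main

end Fermat.Agent.GZ.F.Grow
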