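/-
GATE-Z (S15) / node (F), file 3 (helper20): **(F-GROW), general form** — as `GZ/F/Grow.grow_core`, but
congruences are taken modulo an arbitrary family of subgroups `A k` with `A k ⊆ r^(k−v) N`
(in the application `N = n • J₀(p)(ℚ)` and `A k = N ∩ r^k J₀(p)(ℚ)`, the kernel of the Kummer map).
Mathlib + `GZ/Nak` + `GZ/F/Grow` (definitions `eProd`, `ePoly`) only.

* `not_nsmul_eq_pow_nsmul` : `y₀ ∉ r N`, `N` torsion-free, `0 < d < r^k` ⟹ `d y₀ ∉ r^k N`.
* `exists_eisenstein`      : an eigenvector `z ∉ r N` modulo `r` gives, for every `k`, a subgroup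
                             `Y ⊇ r^k N`, `S`-stable, Eisenstein modulo `r^k N`, and `y₀ ∈ Y`, `y₀ ∉ r N`.
* `grow_general`           : the bound on families incongruent modulo `A k` ⟹ the hypothesis of NAK.
-/
import Mathlib
import Fermat.Agent.GZ.Nak
import Fermat.Agent.GZ.F.Grow

set_option autoImplicit false

namespace Fermat.Agent.GZ.F.Grow

open Fermat.Agent.GZ.Nak

section General

variable {ι N : Type*} [AddCommGroup N]

/-- in a torsion-free group, `y₀ ∉ r N` and `0 < d < r^k` imply `d y₀ ∉ r^k N`. -/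
theorem not_nsmul_eq_pow_nsmul (htf : ∀ (n : ℕ) (z : N), n ≠ 0 → n • z = 0 → z = 0)
    {r : ℕ} (hr : r.Prime) {y₀ : N} (hy₀r : ¬ ∃ w : N, y₀ = r • w) (k : ℕ) :
    ∀ (d : ℕ), 0 < d → d < r ^ k → ∀ w : N, d • y₀ = r ^ k • w → False := by
  intro d hd0 hdlt w hw
  obtain ⟨s, d', hd', hdeq⟩ := Nat.exists_eq_pow_mul_and_not_dvd hd0.ne' r hr.one_lt.ne'
  have hsk : s < k := by
    by_contra hks
    push Not at hks
    have : r ^ k ∣ d := by
      rw [hdeq]
      exact Dvd.dvd.mul_right (pow_dvd_pow r hks) d'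
    exact absurd (Nat.le_of_dvd hd0 this) (by omega)
  -- `r^s (d' y₀ − r^(k−s) w) = 0`
  have h3 : r ^ s • (d' • y₀ - r ^ (k - s) • w) = 0 := by
    rw [smul_sub, smul_smul, smul_smul, ← hdeq, ← pow_add,
      Nat.add_sub_cancel' hsk.le, hw, sub_self]
  have h4 := htf (r ^ s) _ (pow_pos hr.pos s).ne' h3
  have h5 : d' • y₀ = r • (r ^ (k - s - 1) • w) := by
    rw [sub_eq_zero.mp h4, smul_smul, ← pow_succ']
    congr 2
    omega
  -- `d'` is prime to `r`
  have hcop : Nat.Coprime d' r := (Nat.Coprime.symm ((Nat.Prime.coprime_iff_not_dvd hr).mpr hd'))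
  obtain ⟨u, v, huv⟩ : ∃ u v : ℤ, u * d' + v * r = 1 := by
    have := Int.isCoprime_iff_gcd_eq_one.mpr (by
      rw [Int.gcd_natCast_natCast]; exact hcop)
    obtain ⟨u, v, h⟩ := this
    exact ⟨u, v, h⟩
  apply hy₀r
  refine ⟨u • (r ^ (k - s - 1) • w) + v • y₀, ?_⟩
  have h6 : y₀ = (u * d' + v * r) • y₀ := by rw [huv, one_smul]
  rw [add_smul, mul_smul, mul_smul, natCast_zsmul, natCast_zsmul, h5] at h6
  rw [smul_add]
  conv_lhs => rw [h6]
  congr 1
  · rw [smul_comm]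
  · rw [smul_comm]

variable [AddGroup.FG N] (S : ι → AddMonoid.End N) (hS : ∀ i j, Commute (S i) (S j))

include hS in
/-- an eigenvector `z ∉ r N` modulo `r` produces Eisenstein elements of `N / r^k N` outside `r N`. -/
theorem exists_eisenstein (a : ι → ℤ) (r : ℕ) (hr : r.Prime) (z : N)
    (hz : ∀ i, ∃ w : N, S i z - a i • z = r • w) (hzr : ¬ ∃ w : N, z = r • w) (k : ℕ) :
    ∃ Y : AddSubgroup N, (∀ z : N, r ^ k • z ∈ Y) ∧ (∀ i, ∀ y ∈ Y, S i y ∈ Y) ∧
      (∃ n : ℕ, ∀ l : List ι, l.length = n → ∀ y ∈ Y, ∃ w : N, eProd S a l y = r ^ k • w) ∧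
      ∃ y₀ ∈ Y, ¬ ∃ w : N, y₀ = r • w := by
  classical
  -- the module structure
  letI := polyModule S hS
  have hst : IsScalarTower ℤ (MvPolynomial ι ℤ) N := ⟨fun n P z => by
    show polyHom S hS (n • P) z = n • polyHom S hS P z
    rw [map_zsmul]
    rfl⟩
  have : Module.Finite ℤ N := Module.Finite.iff_addGroup_fg.mpr ‹_›
  have : Module.Finite (MvPolynomial ι ℤ) N := Module.Finite.of_restrictScalars_finite ℤ _ N
  let ρ : MvPolynomial ι ℤ := MvPolynomial.C ((r ^ k : ℕ) : ℤ)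
  have hρsmul : ∀ z : N, ρ • z = r ^ k • z := by
    intro z
    show polyHom S hS (MvPolynomial.C ((r ^ k : ℕ) : ℤ)) z = r ^ k • z
    rw [polyHom_C, AddMonoid.End.intCast_apply, natCast_zsmul]
  set Nρ : Submodule (MvPolynomial ι ℤ) N :=
    LinearMap.range (LinearMap.lsmul (MvPolynomial ι ℤ) N ρ) with hNρ
  have hmem : ∀ z : N, z ∈ Nρ ↔ ∃ w : N, z = r ^ k • w := by
    intro z
    rw [hNρ, LinearMap.mem_range]
    constructor
    · rintro ⟨w, hw⟩
      exact ⟨w, by rw [← hρsmul]; exact hw.symm⟩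
    · rintro ⟨w, hw⟩
      exact ⟨w, by rw [hw, ← hρsmul]; rfl⟩
  have hfin : Finite (N ⧸ Nρ) := by
    have : AddGroup.FG (N ⧸ Nρ) :=
      AddGroup.fg_of_surjective (f := (Nρ.mkQ : N →ₗ[MvPolynomial ι ℤ] N ⧸ Nρ).toAddMonoidHom)
        (Submodule.mkQ_surjective Nρ)
    refine AddCommGroup.finite_of_fg_isAddTorsion _ fun v => ?_
    obtain ⟨z, rfl⟩ := Submodule.Quotient.mk_surjective Nρ v
    refine isOfFinAddOrder_iff_nsmul_eq_zero.mpr ⟨r ^ k, pow_pos hr.pos k, ?_⟩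
    rw [← Submodule.Quotient.mk_smul, Submodule.Quotient.mk_eq_zero, hmem]
    exact ⟨z, rfl⟩
  -- the ideal and the stable value of the chain
  set 𝔪 : Ideal (MvPolynomial ι ℤ) :=
    Ideal.span (Set.range fun i => (MvPolynomial.X i - MvPolynomial.C (a i) :
      MvPolynomial ι ℤ)) with h𝔪
  let f : ℕ →o (Submodule (MvPolynomial ι ℤ) (N ⧸ Nρ))ᵒᵈ :=
    ⟨fun n => OrderDual.toDual (𝔪 ^ n • (⊤ : Submodule (MvPolynomial ι ℤ) (N ⧸ Nρ))), by
      intro n n' hnn'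
      show 𝔪 ^ n' • (⊤ : Submodule (MvPolynomial ι ℤ) (N ⧸ Nρ)) ≤ 𝔪 ^ n • ⊤
      exact Submodule.smul_mono_left (Ideal.pow_le_pow_right hnn')⟩
  obtain ⟨n₁, hn₁⟩ := IsArtinian.monotone_stabilizes f
  set X' : Submodule (MvPolynomial ι ℤ) (N ⧸ Nρ) := 𝔪 ^ n₁ • ⊤ with hX'
  have hX'le : X' ≤ 𝔪 • X' := by
    have h1 : 𝔪 ^ n₁ • (⊤ : Submodule (MvPolynomial ι ℤ) (N ⧸ Nρ)) = 𝔪 ^ (n₁ + 1) • ⊤ :=
      congrArg OrderDual.ofDual (hn₁ (n₁ + 1) (Nat.le_succ n₁))
    rw [hX', ← Submodule.mul_smul, ← pow_succ', ← h1]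
  have hX'fg : X'.FG := IsNoetherian.noetherian X'
  obtain ⟨e, he𝔪, heX'⟩ :=
    Submodule.exists_sub_one_mem_and_smul_eq_zero_of_fg_of_le_smul 𝔪 X' hX'fg hX'le
  -- `r N` is a submodule containing `𝔪 z`
  have h𝔪z : ∀ P ∈ 𝔪, ∃ w : N, P • z = r • w := by
    intro P hP
    rw [h𝔪] at hP
    induction hP using Submodule.span_induction with
    | mem x hx =>
      obtain ⟨i, rfl⟩ := hx
      obtain ⟨w, hw⟩ := hz i
      refine ⟨w, ?_⟩
      show polyHom S hS (MvPolynomial.X i - MvPolynomial.C (a i)) z = r • w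
      rw [map_sub, polyHom_X, polyHom_C]
      show S i z - (a i : AddMonoid.End N) z = r • w
      rw [AddMonoid.End.intCast_apply]
      exact hw
    | zero => exact ⟨0, by simp⟩
    | add x y _ _ hx hy =>
      obtain ⟨wx, hwx⟩ := hx
      obtain ⟨wy, hwy⟩ := hy
      exact ⟨wx + wy, by rw [add_smul, hwx, hwy, smul_add]⟩
    | smul c x _ hx =>
      obtain ⟨wx, hwx⟩ := hx
      refine ⟨c • wx, ?_⟩
      rw [smul_eq_mul, mul_smul, hwx]
      show polyHom S hS c (r • wx) = r • polyHom S hS c wx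
      rw [map_nsmul]
  -- the element `y₀ = e z`
  set y₀ : N := e • z with hy₀
  have hy₀r : ¬ ∃ w : N, y₀ = r • w := by
    rintro ⟨w, hw⟩
    obtain ⟨w', hw'⟩ := h𝔪z (e - 1) he𝔪
    apply hzr
    refine ⟨w - w', ?_⟩
    rw [smul_sub, ← hw, ← hw', hy₀, sub_smul, one_smul]
    abel
  -- the subgroup `Y`
  let Y : AddSubgroup N :=
    { carrier := {y | ∀ l : List ι, l.length = n₁ → ∃ w : N, eProd S a l y = r ^ k • w}
      zero_mem' := fun l _ => ⟨0, by simp⟩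
      add_mem' := by
        intro y y' hy hy' l hl
        obtain ⟨w, hw⟩ := hy l hl
        obtain ⟨w', hw'⟩ := hy' l hl
        exact ⟨w + w', by rw [map_add, hw, hw', smul_add]⟩
      neg_mem' := by
        intro y hy l hl
        obtain ⟨w, hw⟩ := hy l hl
        exact ⟨-w, by rw [map_neg, hw, smul_neg]⟩ }
  have hY1 : ∀ z : N, r ^ k • z ∈ Y := by
    intro z l _
    exact ⟨eProd S a l z, by rw [map_nsmul]⟩
  have hcomm : ∀ (i : ι) (l : List ι), Commute (S i) (eProd S a l) := by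
    intro i l
    unfold eProd
    refine Commute.list_prod_right _ _ fun x hx => ?_
    obtain ⟨j, -, rfl⟩ := List.mem_map.mp hx
    unfold eOp
    exact (hS i j).sub_right (Int.cast_commute _ _).symm
  have hY2 : ∀ i, ∀ y ∈ Y, S i y ∈ Y := by
    intro i y hy l hl
    obtain ⟨w, hw⟩ := hy l hl
    refine ⟨S i w, ?_⟩
    have := congrArg (fun φ : AddMonoid.End N => φ y) (hcomm i l).eq
    have h' : S i (eProd S a l y) = eProd S a l (S i y) := this
    rw [← h', hw, map_nsmul]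
  have hY3 : ∃ n : ℕ, ∀ l : List ι, l.length = n → ∀ y ∈ Y, ∃ w : N,
      eProd S a l y = r ^ k • w := ⟨n₁, fun l hl y hy => hy l hl⟩
  have hy₀Y : y₀ ∈ Y := by
    intro l hl
    -- `∏ (X_i − a_i) z` lands in `X'` modulo `r^k N`
    have h1 : (Submodule.Quotient.mk (ePoly a l • z) : N ⧸ Nρ) ∈ X' := by
      rw [hX', Submodule.Quotient.mk_smul]
      refine Submodule.smul_mem_smul ?_ trivial
      rw [← hl]
      exact ePoly_mem_pow a l
    have h2 := heX' _ h1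
    rw [← Submodule.Quotient.mk_smul, Submodule.Quotient.mk_eq_zero, hmem] at h2
    obtain ⟨w, hw⟩ := h2
    refine ⟨w, ?_⟩
    rw [← hw, ← polyHom_ePoly S hS, hy₀]
    show ePoly a l • e • z = e • ePoly a l • z
    rw [smul_smul, smul_smul, mul_comm]
  exact ⟨Y, hY1, hY2, hY3, y₀, hy₀Y, hy₀r⟩

include hS in
/-- **(F-GROW), general form.** -/
theorem grow_general (htf : ∀ (n : ℕ) (z : N), n ≠ 0 → n • z = 0 → z = 0)
    (a : ι → ℤ) (r : ℕ) (hr : r.Prime) (C v : ℕ) (A : ℕ → AddSubgroup N)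
    (hA : ∀ (k : ℕ) (x : N), x ∈ A k → ∃ w : N, x = r ^ (k - v) • w)
    (hbnd : ∀ k : ℕ, ∀ Y : AddSubgroup N, (∀ z : N, r ^ k • z ∈ Y) →
      (∀ i, ∀ y ∈ Y, S i y ∈ Y) →
      (∃ n : ℕ, ∀ l : List ι, l.length = n → ∀ y ∈ Y, ∃ w : N, eProd S a l y = r ^ k • w) →
      ∀ (m : ℕ) (y : Fin m → N), (∀ j, y j ∈ Y) →
        (∀ j j', j ≠ j' → y j - y j' ∉ A k) → m ≤ C) :
    ∀ z : N, (∀ i, ∃ w : N, S i z - a i • z = r • w) → ∃ w : N, z = r • w := by
  intro z hz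
  by_contra hzr
  set k : ℕ := v + C with hk
  have hkC : C < r ^ (k - v) := by
    rw [hk, Nat.add_sub_cancel_left]
    exact Nat.lt_pow_self hr.one_lt
  obtain ⟨Y, hY1, hY2, hY3, y₀, hy₀Y, hy₀r⟩ := exists_eisenstein S hS a r hr z hz hzr k
  have key := not_nsmul_eq_pow_nsmul htf hr hy₀r (k - v)
  have hinc := hbnd k Y hY1 hY2 hY3 (r ^ (k - v)) (fun j => (j : ℕ) • y₀)
    (fun j => Y.nsmul_mem hy₀Y _) (by
      intro j j' hjj' hmem
      obtain ⟨w, hw⟩ := hA k _ hmem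
      rcases lt_or_gt_of_ne (fun h => hjj' (Fin.ext h) : (j : ℕ) ≠ (j' : ℕ)) with hlt | hlt
      · refine key ((j' : ℕ) - (j : ℕ)) (by omega) (by have := j'.2; omega) (-w) ?_
        rw [smul_neg, ← hw, neg_sub]
        have : (((j' : ℕ) - (j : ℕ) : ℕ) : ℤ) • y₀ = (j' : ℕ) • y₀ - (j : ℕ) • y₀ := by
          rw [Nat.cast_sub hlt.le, sub_smul, natCast_zsmul, natCast_zsmul]
        rw [← this, natCast_zsmul]
      · refine key ((j : ℕ) - (j' : ℕ)) (by omega) (by have := j.2; omega) w ?_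
        rw [← hw]
        have : (((j : ℕ) - (j' : ℕ) : ℕ) : ℤ) • y₀ = (j : ℕ) • y₀ - (j' : ℕ) • y₀ := by
          rw [Nat.cast_sub hlt.le, sub_smul, natCast_zsmul, natCast_zsmul]
        rw [← this, natCast_zsmul])
  omega

end General

end Fermat.Agent.GZ.F.Grow
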