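/-
GATE-Z (S15) / node (F), file 2 (helper20): **(F-PROJ)** — the polynomial projector onto the
Eisenstein part of a finite module.  Mathlib + `GZ/Nak` (`polyHom`) + `GZ/F/Grow` (`eProd`, `ePoly`).

`X` a finite abelian group, `S i` commuting endomorphisms, `a i : ℤ`, `𝔪 := (X_i − a_i) ⊆ ℤ[X_i]`.

* `polyHom_apply_mem_of_mem_pow` : if `Z ≤ X` is `S`-stable and every product of `N` operators
  `S i − a i` maps `x` into `Z`, then every `P ∈ 𝔪 ^ N` maps `x` into `Z`.
* `exists_projector` : for every `N` there is `e` with `e − 1 ∈ 𝔪 ^ N` and `n₁` such that every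
  product of `n₁` operators `S i − a i` kills `e • x` (all `x`); consequently `e • x = x` as soon
  as every product of `N` operators `S i − a i` kills `x`.
-/
import Mathlib
import Fermat.Agent.GZ.Nak
import Fermat.Agent.GZ.F.Grow

set_option autoImplicit false

namespace Fermat.Agent.GZ.F.Proj

open Fermat.Agent.GZ.Nak Fermat.Agent.GZ.F.Grow

variable {ι X : Type*} [AddCommGroup X] (S : ι → AddMonoid.End X)
  (hS : ∀ i j, Commute (S i) (S j))

/-- the Eisenstein ideal `(X_i − a_i)` of `ℤ[X_i]`. -/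
noncomputable def eisIdeal (a : ι → ℤ) : Ideal (MvPolynomial ι ℤ) :=
  Ideal.span (Set.range fun i => (MvPolynomial.X i - MvPolynomial.C (a i) : MvPolynomial ι ℤ))

theorem ePoly_mem_eisIdeal_pow (a : ι → ℤ) (l : List ι) : ePoly a l ∈ eisIdeal a ^ l.length :=
  ePoly_mem_pow a l

include hS in
/-- every `P ∈ 𝔪 ^ N` maps `x` into the stable subgroup `Z` as soon as all products of `N`
Eisenstein operators do. -/
theorem polyHom_apply_mem_of_mem_pow (a : ι → ℤ) (N : ℕ) (Z : AddSubgroup X)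
    (hZ : ∀ i, ∀ z ∈ Z, S i z ∈ Z) (x : X)
    (hx : ∀ l : List ι, l.length = N → eProd S a l x ∈ Z)
    {P : MvPolynomial ι ℤ} (hP : P ∈ eisIdeal a ^ N) : polyHom S hS P x ∈ Z := by
  -- polynomials preserve `Z`
  have hZP : ∀ (Q : MvPolynomial ι ℤ), ∀ z ∈ Z, polyHom S hS Q z ∈ Z := by
    intro Q
    induction Q using MvPolynomial.induction_on with
    | C n =>
      intro z hz
      rw [polyHom_C, AddMonoid.End.intCast_apply]
      exact Z.zsmul_mem hz n
    | add P Q hP hQ =>
      intro z hz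
      rw [map_add]
      exact Z.add_mem (hP z hz) (hQ z hz)
    | mul_X P i hP =>
      intro z hz
      rw [map_mul, polyHom_X]
      exact hP _ (hZ i z hz)
  unfold eisIdeal at hP
  rw [Ideal.span, Submodule.span_pow] at hP
  induction hP using Submodule.span_induction with
  | mem y hy =>
    obtain ⟨f, rfl⟩ := Set.mem_pow.mp hy
    -- choose the indices
    have hf : ∀ j : Fin N, ∃ i : ι, (MvPolynomial.X i - MvPolynomial.C (a i) :
        MvPolynomial ι ℤ) = (f j : MvPolynomial ι ℤ) := fun j => (f j).2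
    choose g hg using hf
    have h1 : (List.ofFn fun j => ((f j : _) : MvPolynomial ι ℤ)) =
        (List.ofFn g).map fun i => (MvPolynomial.X i - MvPolynomial.C (a i) :
          MvPolynomial ι ℤ) := by
      rw [List.map_ofFn]
      congr 1
      funext j
      exact (hg j).symm
    rw [h1]
    have h2 := polyHom_ePoly S hS a (List.ofFn g)
    unfold ePoly at h2
    rw [h2]
    exact hx _ (List.length_ofFn)
  | zero => rw [map_zero]; exact Z.zero_mem
  | add y y' _ _ hy hy' =>
    rw [map_add]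
    exact Z.add_mem hy hy'
  | smul c y _ hy =>
    rw [smul_eq_mul, map_mul]
    exact hZP c _ hy

include hS in
/-- the special case `Z = 0`. -/
theorem polyHom_apply_eq_zero_of_mem_pow (a : ι → ℤ) (N : ℕ) (x : X)
    (hx : ∀ l : List ι, l.length = N → eProd S a l x = 0)
    {P : MvPolynomial ι ℤ} (hP : P ∈ eisIdeal a ^ N) : polyHom S hS P x = 0 := by
  have := polyHom_apply_mem_of_mem_pow S hS a N ⊥ (fun i z hz => by
    rw [AddSubgroup.mem_bot] at hz ⊢
    rw [hz, map_zero]) x (fun l hl => by rw [AddSubgroup.mem_bot]; exact hx l hl) hP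
  rwa [AddSubgroup.mem_bot] at this

include hS in
/-- **(F-PROJ)**: the polynomial projector onto the Eisenstein part of a finite module. -/
theorem exists_projector [Finite X] (a : ι → ℤ) (N : ℕ) :
    ∃ e : MvPolynomial ι ℤ, e - 1 ∈ eisIdeal a ^ N ∧
      (∃ n₁ : ℕ, ∀ (x : X) (l : List ι), l.length = n₁ → eProd S a l (polyHom S hS e x) = 0) ∧
      ∀ x : X, (∀ l : List ι, l.length = N → eProd S a l x = 0) → polyHom S hS e x = x := by
  classical
  letI := polyModule S hS
  set 𝔪 : Ideal (MvPolynomial ι ℤ) := eisIdeal a with h𝔪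
  let f : ℕ →o (Submodule (MvPolynomial ι ℤ) X)ᵒᵈ :=
    ⟨fun n => OrderDual.toDual (𝔪 ^ n • (⊤ : Submodule (MvPolynomial ι ℤ) X)), by
      intro n n' hnn'
      show 𝔪 ^ n' • (⊤ : Submodule (MvPolynomial ι ℤ) X) ≤ 𝔪 ^ n • ⊤
      exact Submodule.smul_mono_left (Ideal.pow_le_pow_right hnn')⟩
  obtain ⟨n₁, hn₁⟩ := IsArtinian.monotone_stabilizes f
  set X' : Submodule (MvPolynomial ι ℤ) X := 𝔪 ^ n₁ • ⊤ with hX'
  have hX'le : X' ≤ 𝔪 ^ N • X' := by
    have h1 : 𝔪 ^ n₁ • (⊤ : Submodule (MvPolynomial ι ℤ) X) = 𝔪 ^ (n₁ + N) • ⊤ :=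
      congrArg OrderDual.ofDual (hn₁ (n₁ + N) (Nat.le_add_right n₁ N))
    rw [hX', ← Submodule.mul_smul, ← pow_add, add_comm N n₁, ← h1]
  have hX'fg : X'.FG := IsNoetherian.noetherian X'
  obtain ⟨e, he𝔪, heX'⟩ :=
    Submodule.exists_sub_one_mem_and_smul_eq_zero_of_fg_of_le_smul (𝔪 ^ N) X' hX'fg hX'le
  refine ⟨e, he𝔪, ⟨n₁, fun x l hl => ?_⟩, fun x hx => ?_⟩
  · have h1 : ePoly a l • x ∈ X' := by
      rw [hX']
      refine Submodule.smul_mem_smul ?_ trivial
      rw [← hl]
      exact ePoly_mem_eisIdeal_pow a l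
    have h2 := heX' _ h1
    rw [← polyHom_ePoly S hS]
    show ePoly a l • e • x = 0
    rw [smul_smul, mul_comm, ← smul_smul]
    exact h2
  · have h1 := polyHom_apply_eq_zero_of_mem_pow S hS a N x hx he𝔪
    rw [map_sub, map_one] at h1
    have h2 : polyHom S hS e x - x = 0 := h1
    exact sub_eq_zero.mp h2

end Fermat.Agent.GZ.F.Proj
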