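/-
GATE-Z (S15) / node (F), ASSEMBLY (helper79): **`F.SelHyp p S r` — the `hsel` binder of
`GZ/F/FOfSel.fStmt_of_sel` — from (F-KUMLOC) + (F-SB)**.

* `selHyp_of_bound`  : pure (F-KUMLOC) side.  `n' > 0` with the (LOCP*) divisibility `hdiv` at every
  `k`, and for every `k` a local condition `XL_k` (with `hXL`, `hFL`) such that the Selmer group
  `H~¹(𝒱_k)` of `𝒱_k = LocPlugSub.markedEisSub … XL_k` is finite of cardinality `≤ C₁`
  ⟹ `F.SelHyp p S r` (VERBATIM the definition in `GZ/F/FOfNodes`).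
* `exists_sb`        : (F-SB) for the marking `𝒱_k` with `XL_k := flatX h_k ⊓ realX c`
  (`h_k` = helper92's flat order `hFL_free`, `c` = complex conjugation):
  `Finite H~¹(𝒱_k) ∧ #H~¹(𝒱_k) ≤ B · r^(6g)`, from helper7 `selBound_eisPart_le` +
  `pieceHyps_of_flat`, helper10 `hnum_eisSub` (NUM**), helper94 `exists_card_H0_le` (H0),
  helper36 flag, helper10 (UNIP) (inside `selBound_eisPart_le`).
* `selHyp_of_locp`   : **`F.SelHyp p S r` from (LOCP*) ALONE** (`p ≥ 5` prime, `r ≠ p` prime, any `S`).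
* `fStmt_of_locp`    : `Top.FStmt C S` from (LOCP*) + `r ∣ ord c`.
-/
import Mathlib
import Fermat.Agent.GZ.Kum.LocPlugSub
import Fermat.Agent.GZ.F.FOfSel
import Fermat.Agent.GZ.F.SB.PieceWire
import Fermat.Agent.GZ.F.SB.H0Bound
import Fermat.Agent.GZ.Num.Plug
import Fermat.Agent.GZ.LocR.FlatFree

set_option autoImplicit false

noncomputable section

open AlgebraicCurve ModularCurve GaloisRep CongruenceSubgroup

namespace Fermat.Agent.GZ.F.SelAsm

open Fermat.Agent.GZ.Dev Fermat.Agent.GZ.Kum.KumDev Fermat.Agent.GZ.Kum.TorsModel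
  Fermat.Agent.GZ.Kum.Plug Fermat.Agent.GZ.Kum.LocPlug Fermat.Agent.GZ.Kum.LocPlugSub
  Fermat.Agent.GZ.Const.EisPart Fermat.Agent.GZ.F Fermat.Agent.GZ.LocR.FlatSub

local notation "Qb" => AlgebraicClosure ℚ
local notation "GQ" => (AlgebraicClosure ℚ ≃ₐ[ℚ] AlgebraicClosure ℚ)

variable {p : ℕ} [NeZero p]

/-- `Sram`-condition at the powers of `r`. -/
theorem hnS_pow {Sram : Set ℕ} {r : ℕ} (hrS : ∀ ℓ' : ℕ, ℓ'.Prime → ℓ' ∣ r → ℓ' ∈ Sram) (k : ℕ) :
    ∀ ℓ' : ℕ, ℓ'.Prime → ℓ' ∣ r ^ k → ℓ' ∈ Sram :=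
  fun ℓ' hℓ' h => hrS ℓ' hℓ' (hℓ'.dvd_of_dvd_pow h)

/-- **`F.SelHyp` from (F-KUMLOC) and a uniform bound on the Selmer groups `H~¹(𝒱_k)`.** -/
theorem selHyp_of_bound (hp : p.Prime) (hp2 : p ≠ 2) (hp3 : p ≠ 3) (S : Finset ℕ)
    (A : ValuationSubring Qb) {Sram : Set ℕ} (hpS : p ∈ Sram) (r : ℕ) (hr : r ≠ 0)
    (hrS : ∀ ℓ' : ℕ, ℓ'.Prime → ℓ' ∣ r → ℓ' ∈ Sram)
    (n' : ℕ) (hn' : 0 < n')
    (hdiv : ∀ k : ℕ, ∀ z : JZero p, (∀ σ : GQ, σ • z = z) →
      ∃ R : JZero p, r ^ k • R = n' • z ∧ ∀ τ ∈ A.inertiaSubgroupIn ℚ, τ • R = R)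
    (C₁ : ℕ)
    (hSB : ∀ k : ℕ, ∃ (XL : AddSubgroup (GQ → Wn p (r ^ k)))
      (hXL : ∀ w : Wn p (r ^ k), dCob GQ w ∈ XL),
      (∀ R : JZero p, (∀ σ : GQ, σ • (r ^ k • R) = r ^ k • R) → ∀ x : GQ → Wn p (r ^ k),
        (∀ σ, torsι (JZero p) (r ^ k) (x σ) = σ • R - R) → x ∈ XL) ∧
      Finite (markedEisSub p hp S r k hr hp2 hp3 A hpS (hnS_pow hrS k) XL hXL).H1 ∧
      Nat.card (markedEisSub p hp S r k hr hp2 hp3 A hpS (hnS_pow hrS k) XL hXL).H1 ≤ C₁) :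
    SelHyp p S r := by
  refine ⟨n', C₁, hn', fun k Y hY1 _ hY3 m y hyY hinc => ?_⟩
  obtain ⟨XL, hXL, hFL, hfin, hcard⟩ := hSB k
  have hYM : Y ≤ nMW p n' := by
    intro y hy
    obtain ⟨z, hz, rfl⟩ := hY1 y hy
    exact mem_nMW.mpr ⟨z, (mem_MW p).mp hz, rfl⟩
  have hYE : ∃ N : ℕ, ∀ l : List Nat.Primes, l.length = N → GoodList p S l →
      ∀ y ∈ Y, eisProd p l y ∈ nMW p (r ^ k) := by
    obtain ⟨N, hN⟩ := hY3
    refine ⟨N, fun l hl hgood y hy => ?_⟩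
    obtain ⟨w, hw, hyw⟩ := hN l hl hgood y hy
    exact mem_nMW.mpr ⟨w, (mem_MW p).mp hw, hyw.symm⟩
  have hinc' : ∀ j j', j ≠ j' → y j - y j' ∉ nMW p (r ^ k) := by
    intro j j' hjj' hmem
    obtain ⟨z, hz, hzy⟩ := mem_nMW.mp hmem
    exact hinc j j' hjj' ⟨z, (mem_MW p).mpr hz, hzy.symm⟩
  exact le_trans
    (card_le_of_incongruentSub hp hr hp2 hp3 A hpS (hnS_pow hrS k) XL hXL n' (hdiv k) hFL Y hYM hYE
      hfin m y hyY hinc') hcard

/-! ### the Selmer bound for `XL_k := flatX h_k ⊓ realX c` -/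

/-- a square root `i₀` of `-1` in `ℚ̄`; complex conjugation maps it to `-i₀`. -/
theorem exists_sqrt_neg_one :
    ∃ i₀ : Qb, i₀ ^ 2 = -1 ∧ complexConjugation i₀ = -i₀ := by
  obtain ⟨i₀, hi⟩ := IsAlgClosed.exists_pow_nat_eq (-1 : Qb) (n := 2) (by norm_num)
  refine ⟨i₀, hi, ?_⟩
  have h4 : i₀ ^ 4 = 1 := by
    calc i₀ ^ 4 = (i₀ ^ 2) ^ 2 := by ring
      _ = 1 := by rw [hi]; ring
  rw [Fermat.Agent.GJ.Cyc.complexConjugation_rootOfUnity 4 (by norm_num) i₀ h4]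
  apply inv_eq_of_mul_eq_one_left
  calc -i₀ * i₀ = -(i₀ ^ 2) := by ring
    _ = 1 := by rw [hi]; ring

/-- the ramification set `{p, r}`. -/
def ramSet (p r : ℕ) : Set ℕ := {p, r}

theorem mem_ramSet_left (p r : ℕ) : p ∈ ramSet p r := Or.inl rfl

theorem mem_ramSet_of_dvd (p : ℕ) {r : ℕ} (hr : r.Prime) :
    ∀ ℓ' : ℕ, ℓ'.Prime → ℓ' ∣ r → ℓ' ∈ ramSet p r :=
  fun _ hℓ' h => Or.inr ((Nat.prime_dvd_prime_iff_eq hℓ' hr).mp h)

/-- **(F-SB) for the canonical marking**: with `XL_k := flatX h_k ⊓ realX c` the Selmer group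
`H~¹(𝒱_k)` is finite of cardinality `≤ B · r^(6g)`, `B` a bound on all `H~⁰`. -/
theorem exists_sb (hp : p.Prime) (hp2 : p ≠ 2) (hp3 : p ≠ 3) (S : Finset ℕ)
    (A : ValuationSubring Qb) (hA : A.LiesOverPrime p) (r : ℕ) [hrF : Fact r.Prime] (hrp : r ≠ p)
    (B : ℕ)
    (hB : ∀ (T : StableSub GQ (JZero p)), (∀ x ∈ T.U, IsOfFinAddOrder x) →
      ∀ (D I : Subgroup GQ) (𝒱 : Marked D I ↥T.U), Nat.card ↥𝒱.H0 ≤ B) (k : ℕ) :
    ∃ (XL : AddSubgroup (GQ → Wn p (r ^ k)))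
      (hXL : ∀ w : Wn p (r ^ k), dCob GQ w ∈ XL),
      (∀ R : JZero p, (∀ σ : GQ, σ • (r ^ k • R) = r ^ k • R) → ∀ x : GQ → Wn p (r ^ k),
        (∀ σ, torsι (JZero p) (r ^ k) (x σ) = σ • R - R) → x ∈ XL) ∧
      Finite (markedEisSub p hp S r k hrF.out.ne_zero hp2 hp3 A (mem_ramSet_left p r)
        (hnS_pow (mem_ramSet_of_dvd p hrF.out) k) XL hXL).H1 ∧
      Nat.card (markedEisSub p hp S r k hrF.out.ne_zero hp2 hp3 A (mem_ramSet_left p r)
        (hnS_pow (mem_ramSet_of_dvd p hrF.out) k) XL hXL).H1 ≤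
          B * r ^ (6 * Module.finrank ℂ (CuspForm (Gamma0 p) 2)) := by
  have hr : r.Prime := hrF.out
  have hr0 : r ≠ 0 := hr.ne_zero
  have hrN : ¬ r ∣ p := fun h => hrp ((Nat.prime_dvd_prime_iff_eq hr hp).mp h)
  obtain ⟨HM, hfinM, h, hFL⟩ := Fermat.Agent.GZ.LocR.FlatFree.hFL_free p r k hrN
  have hcc : complexConjugation * complexConjugation = 1 := complexConjugation_mul_self
  have hXL : ∀ w : Wn p (r ^ k), dCob GQ w ∈ flatX h ⊓ realX complexConjugation :=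
    fun w => ⟨dCob_mem_flatX h w, dCob_mem_realX hcc w⟩
  refine ⟨flatX h ⊓ realX complexConjugation, hXL, ?_, ?_⟩
  · intro R hR x hx
    refine ⟨hFL R hR x hx, ?_⟩
    show x complexConjugation + complexConjugation • x complexConjugation = 0
    apply torsι_injective (J := JZero p) (n := r ^ k)
    rw [map_add, torsι_smul, hx, map_zero, smul_sub, ← mul_smul, hcc, one_smul]
    abel
  · have hpS := mem_ramSet_left p r
    have hnS := hnS_pow (mem_ramSet_of_dvd p hr) k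
    have hinj := eisInclSub_injective (S := S) (k := k) hp hr0
    have : Finite ↥(eisSub p hp S r k hr0).U := Finite.of_injective _ hinj
    -- the marking
    have hWf := markedEisSub_hWf (S := S) hp hr0 hp2 hp3 A hpS hnS
      (flatX h ⊓ realX complexConjugation) hXL
    have hX : (markedEisSub p hp S r k hr0 hp2 hp3 A hpS hnS
        (flatX h ⊓ realX complexConjugation) hXL).X ≤ realX complexConjugation := by
      intro x hx
      have h1 : eisInclSub p hp S r k hr0 (x complexConjugation) +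
          complexConjugation • eisInclSub p hp S r k hr0 (x complexConjugation) = 0 :=
        (incl_mem_XL_of_mem_X hp hr0 hp2 hp3 A hpS hnS _ hXL hx).2
      show x complexConjugation + complexConjugation • x complexConjugation = 0
      apply hinj
      rw [map_add, eisInclSub_smul, map_zero]
      exact h1
    obtain ⟨i₀, hi, hci⟩ := exists_sqrt_neg_one
    have hW := isStableOrder_map_smul h (eisInclSub p hp S r k hr0) hinj
      (eisInclSub_smul hp hr0)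
    have hXflat : (markedEisSub p hp S r k hr0 hp2 hp3 A hpS hnS
        (flatX h ⊓ realX complexConjugation) hXL).X ≤ flatX hW := fun x hx =>
      mem_flatX_of_comp h (eisInclSub p hp S r k hr0) hinj (eisInclSub_smul hp hr0)
        (incl_mem_XL_of_mem_X hp hr0 hp2 hp3 A hpS hnS _ hXL hx).1
    have hPH : Fermat.Agent.GZ.F.SB.PieceHyps (markedEisSub p hp S r k hr0 hp2 hp3 A hpS hnS
        (flatX h ⊓ realX complexConjugation) hXL) r (Fermat.Agent.GJ.CycChar.cyc r)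
        complexConjugation :=
      Fermat.Agent.GZ.F.SB.pieceHyps_of_flat _ (p := p) ⟨A, hA, le_refl _⟩
        (fun x hx => levelConst_of_mem_X hp hr0 hp2 hp3 A hpS hnS _ hXL hx)
        (fun x hx l hl hlr hlp => by
          obtain ⟨A', hA'⟩ := Fermat.Agent.Common_helper32.exists_liesOverPrime l hl
          refine ⟨A', hA', fun σ hσ =>
            unramified_of_mem_X hp hr0 hp2 hp3 A hpS hnS _ hXL hx l hl ?_ A' hA' σ hσ⟩
          rintro (h1 | h1)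
          · exact hlp h1
          · exact hlr h1)
        hW hXflat complexConjugation i₀ hi hci
    exact Fermat.Agent.GZ.F.SB.selBound_eisPart_le p hp S r k hr0 hrp A hA _ hWf
      complexConjugation hcc (Fermat.Agent.GZ.Const.PiecePlug.cyc_complexConjugation r) hX hPH _
      (Fermat.Agent.GZ.Num.Plug.hnum_eisSub p hp S r k hr0) B
      (hB (eisSub p hp S r k hr0)
        (fun _ hx => Fermat.Agent.GZ.F.SB.H0Bound.isOfFinAddOrder_of_mem_eisPart hr0 hx) _ _ _)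

/-- **`F.SelHyp p S r` from (LOCP*) ALONE.** -/
theorem selHyp_of_locp (hp : p.Prime) (hp5 : 5 ≤ p) (S : Finset ℕ)
    (A : ValuationSubring Qb) (hA : A.LiesOverPrime p) (r : ℕ) (hr : r.Prime) (hrp : r ≠ p)
    (n' : ℕ) (hn' : 0 < n')
    (hdiv : ∀ k : ℕ, ∀ z : JZero p, (∀ σ : GQ, σ • z = z) →
      ∃ R : JZero p, r ^ k • R = n' • z ∧ ∀ τ ∈ A.inertiaSubgroupIn ℚ, τ • R = R) :
    SelHyp p S r := by
  have hrF : Fact r.Prime := ⟨hr⟩
  have hp2 : p ≠ 2 := by omega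
  have hp3 : p ≠ 3 := by omega
  obtain ⟨B, -, hB⟩ := Fermat.Agent.GZ.F.SB.H0Bound.exists_card_H0_le
    (Fermat.Agent.S17.result p hp hp5)
  exact selHyp_of_bound hp hp2 hp3 S A (mem_ramSet_left p r) r hr.ne_zero
    (mem_ramSet_of_dvd p hr) n' hn' hdiv _
    (fun k => exists_sb hp hp2 hp3 S A hA r hrp B hB k)

/-- **`Top.FStmt C S` from (LOCP*) + `r ∣ ord c`.** -/
theorem fStmt_of_locp (hp : p.Prime) (hp5 : 5 ≤ p) (C : Top.CuspPkg p) (S : Finset ℕ)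
    (A : ValuationSubring Qb) (hA : A.LiesOverPrime p) (r : ℕ) (hr : r.Prime) (hrp : r ≠ p)
    (hrc : r ∣ addOrderOf C.c) (n' : ℕ) (hn' : 0 < n')
    (hdiv : ∀ k : ℕ, ∀ z : JZero p, (∀ σ : GQ, σ • z = z) →
      ∃ R : JZero p, r ^ k • R = n' • z ∧ ∀ τ ∈ A.inertiaSubgroupIn ℚ, τ • R = R) :
    Top.FStmt C S :=
  FOfSel.fStmt_of_sel p hp hp5 C S r hr hrc
    (selHyp_of_locp hp hp5 S A hA r hr hrp n' hn' hdiv)

end Fermat.Agent.GZ.F.SelAsm
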